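import Fermat.Agent.S36.ZAbs
import Fermat.Agent.S36.AtAPI

/-!
# S36 / Loc : normality of the three components and `Degen.LocAt` (architect helper78)

Block [LOC] of the instantiation of `ZData` (report 1442): the fields `nor₁`, `nor₂` and the
`D₁.LocAt 𝔫`, `D₂.LocAt 𝔫` part of `tri₁`.  Everything here is abstract commutative algebra.

* `NorInt P` : `B / P` is integrally closed, elementwise form (`B_P / P B_P` is its fraction field).
* `Stmt_Iso` : (ISO-glob) `B = ι(B') + P` and `NorInt P`, from `NorInt P'` at the lower level `M''`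
  (good reduction), equality of residue fields and integrality modulo `P`.
  Application: `(P_A, incl)`, `(P_mid, incl)`, `(P_mid, ι_C)`, `(P_C, ι_C)`, `ι_C h = h(q^(r²))`.
* `Stmt_NorIC`, `Stmt_NorAt` : `NorInt P ↔ IsIntegrallyClosed (B ⧸ P)` (input of `Reg.Stmt_Ded`),
  `NorInt P → NorAt m 𝔫 P`.
* `Stmt_LocAt` : `D.LocAt ν` at a triple point.

Each package proves `theorem xxx : Stmt_xxx` in its own file `Fermat/Agent/S36/Loc/<Name>.lean`.
-/

set_option autoImplicit false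

namespace Fermat.Agent.S36.Loc

open Fermat.Agent.KL Fermat.Agent.S36

/-- `B / P` is integrally closed in its fraction field `B_P / P B_P`, elementwise: an element `z` of
`B_P` which satisfies a monic equation over `B` modulo `P B_P` is congruent to an element of `B`. -/
def NorInt {B : Type*} (F : Type*) [CommRing B] [Field F] [Algebra B F] (P : Ideal B) : Prop :=
  ∀ z : F, IntAt P z → (∃ p : Polynomial B, p.Monic ∧ PosAt P (Polynomial.aeval z p)) →
    ∃ b : B, PosAt P (z - algebraMap B F b)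

/-- `B = ι(B') + P`, elementwise. -/
def IsoMod {B' F' B F : Type*} [CommRing B'] [Field F'] [Algebra B' F'] [CommRing B] [Field F]
    [Algebra B F] (ι : F' →+* F) (P : Ideal B) : Prop :=
  ∀ b : B, ∃ y : B', PosAt P (algebraMap B F b - ι (algebraMap B' F' y))

/-- **LOC-ISO** (ISO-glob).
Proof.  `b ∈ B \ P`: by (RES) `b ≡ ι y'`, `y'` a unit at `P'`; the monic equation of `b` modulo `P`
gives a monic equation of `y'` modulo `P'`; `NorInt P'` gives `y ∈ B'`, `y' ≡ y`.  For `NorInt P`: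
replace `z` by `ι z'` (RES) and the coefficients of `p` by elements of `ι(B')` (first part). -/
def Stmt_Iso : Prop :=
  ∀ (B' F' B F : Type) [CommRing B'] [IsDomain B'] [Field F'] [Algebra B' F'] [IsFractionRing B' F']
    [CommRing B] [IsDomain B] [Field F] [Algebra B F] [IsFractionRing B F]
    (ι : F' →+* F) (P' : Ideal B') (P : Ideal B), P'.IsPrime → P.IsPrime →
    -- `ι(B') ⊆ B`
    (∀ y : B', ∃ b : B, algebraMap B F b = ι (algebraMap B' F' y)) →
    -- `B_P` dominates `ι(B'_{P'})`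
    (∀ z : F', PosAt P' z ↔ PosAt P (ι z)) → (∀ z : F', UnitAt P' z ↔ UnitAt P (ι z)) →
    -- (RES) same residue field
    (∀ y : F, UnitAt P y → ∃ y' : F', PosAt P (y - ι y')) →
    -- `B / P` is integral over the image of `B'`
    (∀ b : B, ∃ p : Polynomial B', p.Monic ∧
      PosAt P (p.eval₂ (ι.comp (algebraMap B' F')) (algebraMap B F b))) →
    NorInt F' P' →
    IsoMod (B' := B') ι P ∧ NorInt F P

/-- **LOC-NORIC**. `NorInt` is the integral closedness of `B ⧸ P`. -/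
def Stmt_NorIC : Prop :=
  ∀ (B F : Type) [CommRing B] [IsDomain B] [Field F] [Algebra B F] [IsFractionRing B F]
    (P : Ideal B) [P.IsPrime], NorInt F P ↔ IsIntegrallyClosed (B ⧸ P)

/-- **LOC-NORAT**. `NorInt` gives (NOR).  (`e = a / s`, `(s x) ^ m ≡ s ^ (m - 1) a`.) -/
def Stmt_NorAt : Prop :=
  ∀ (B F : Type) [CommRing B] [IsDomain B] [Field F] [Algebra B F] [IsFractionRing B F]
    (𝔫 P : Ideal B) (m : ℕ), 𝔫.IsPrime → P.IsPrime → P ≤ 𝔫 → 0 < m → NorInt F P →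
    NorAt (F := F) m 𝔫 P

/-- the elements of `B` lying in `π(F₁)`. -/
def baseSub {F₁ F : Type*} (B : Type*) [Field F₁] [Field F] [CommRing B] [Algebra B F]
    (π : F₁ →+* F) : Subring B :=
  π.range.comap (algebraMap B F)

/-- **LOC-AT**. `D.LocAt ν` at a triple point `ν`.
Proof.  `B₁ := baseSub B D.π`.
(1) every prime `Q` of `B` with `Q ∩ B₁ = ν ∩ B₁` contains `ν`: `ϖ ∈ Q`, so `P_i ≤ Q` for some `i`;
`i = 1, 2`: `b ∈ ν`, `b = c + p`, `c ∈ B₁`, `p ∈ P_i`, so `c ∈ ν ∩ B₁ ⊆ Q`; `i = 3`: `b ∈ ν \ P₃`,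
`c := π(N b) ∈ B₁`, `c - b ^ r ∈ P₃` by `D.nb`, so `c ∈ ν ∩ B₁ ⊆ Q` and `b ^ r ∈ Q`.
(2) `s ∉ ν` ⟹ `s ∣ c` for some `c ∈ B₁ \ ν` (otherwise
`Ideal.exists_ideal_over_prime_of_isIntegral` gives a prime `Q ∋ s` over `ν ∩ B₁`, `ν ≤ Q`, `Q = ν`).
(3) `π(N s) π(N s') = c ^ r ∉ ν`, so `π(N s) ∉ ν`; this gives the first clause.
(4) second clause: `a = p / s`, `p ≡ π x_p`, `s ≡ π x_s` modulo `P₂`, `a' := x_p / x_s`. -/
def Stmt_LocAt : Prop :=
  ∀ (A₀ F F₁ B : Type) [CommRing A₀] [Field F] [Field F₁] [Algebra A₀ F] [Algebra A₀ F₁]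
    [CommRing B] [IsDomain B] [Algebra B F] [IsFractionRing B F]
    (o₁ o₂ o₃ : F → ℤ) (r : ℕ) (D : Degen A₀ F F₁ o₁ o₂ o₃ r) (ϖ : B) (ν P₁ P₂ P₃ : Ideal B),
    ν.IsMaximal → P₁.IsPrime → P₂.IsPrime → P₃.IsPrime → P₁ ≤ ν → P₂ ≤ ν → P₃ ≤ ν →
    IsCen P₁ o₁ → IsCen P₂ o₂ → IsCen P₃ o₃ → 1 ≤ r → ϖ ∈ ν → ϖ ∈ baseSub B D.π →
    (∀ Q : Ideal B, Q.IsPrime → ϖ ∈ Q → P₁ ≤ Q ∨ P₂ ≤ Q ∨ P₃ ≤ Q) →
    -- the norm of an integral element is integral
    (∀ b : B, ∃ c : B, algebraMap B F c = D.π (D.N (algebraMap B F b))) →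
    (∀ x : F₁, D.N (D.π x) = x ^ r) →
    (∀ b : B, IsIntegral (baseSub B D.π) b) →
    -- (ISO) for `P₁` and `P₂`
    (∀ b : B, ∃ c ∈ baseSub B D.π, b - c ∈ P₁) →
    (∀ b : B, ∃ c ∈ baseSub B D.π, b - c ∈ P₂) →
    D.LocAt ν

end Fermat.Agent.S36.Loc
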