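import Fermat.Agent.S36.Loc.Interface
import Fermat.Agent.S36.Val.Interface2
import Fermat.Agent.S36.Reg.Interface
import Fermat.Agent.S36.Phi.Interface
import Fermat.Agent.S36.HM.Interface

/-!
# S36 / Loc : instantiation of [LOC] (architect helper78)

Part 1 : [MUT] `t_a(q)`, `t_a(q^r)`, `t_a(q^(r²))` are mutually integral over `A₀` (valuation theory).
Part 2 : wrappers of `Stmt_Iso`, `Stmt_LocAt` in the language of valuation rings and charts.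
Part 3 : the abstract main theorem `Stmt_LocAbs` (hypotheses bundled in `LocHyp`).
Part 4 : the concrete inputs on helper88's `Ctx A r M` and the final statement `Stmt_LocMain`.
-/

set_option autoImplicit false

noncomputable section

namespace Fermat.Agent.S36.Loc

open Fermat.Agent
open Fermat.Agent.KL (Chart PolyR cst crd FinOverR)
open Fermat.Agent.S36.Val
open Fermat.Agent.S36.Base
open Fermat.Agent.S24 (Qbar FF)
open Fermat.Agent.CAR (NR.IsUnif)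
open ModularCurve (qExpand coeffMap)
open Polynomial

/-! ## Part 1 : mutual integrality -/

/-- `x` and `y` have the same poles and the same zeros on the whole normal model over `A₀`. -/
def MutInt (A₀ : Type) {F : Type} [CommRing A₀] [Field F] [Algebra A₀ F] (x y : F) : Prop :=
  IsIntegral (PolyR A₀ x) y ∧ IsIntegral (PolyR A₀ y) x ∧
    IsIntegral (PolyR A₀ x⁻¹) y⁻¹ ∧ IsIntegral (PolyR A₀ y⁻¹) x⁻¹

/-- **MUT-CRIT** (valuative criterion of integrality; Mathlib `iInf_valuationSubring_superset`). -/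
def Stmt_ValCrit : Prop :=
  ∀ (A₀ F : Type) [CommRing A₀] [Field F] [Algebra A₀ F] (t x : F),
    (∀ O : ValuationSubring F, (∀ a : A₀, algebraMap A₀ F a ∈ O) → t ∈ O → x ∈ O) →
    IsIntegral (PolyR A₀ t) x

/-- **MUT-TRANS**. -/
def Stmt_MutTrans : Prop :=
  ∀ (A₀ F : Type) [CommRing A₀] [Field F] [Algebra A₀ F] (x y z : F),
    MutInt A₀ x y → MutInt A₀ y z → MutInt A₀ x z

/-- **MUT-DICH** : `Reg.Stmt_Dich` for a valuation ring. -/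
def Stmt_DichV : Prop :=
  ∀ (F : Type) [Field F] (O : ValuationSubring F) (r : ℕ) (c : ℕ → ℕ → ℤ) (Z W : F), 2 ≤ r →
    Reg.PhiShape r c → W ≠ 0 → O.valuation W < 1 →
    ∑ a ∈ Finset.range (r + 2), ∑ b ∈ Finset.range (r + 2), ((c a b : ℤ) : F) * Z ^ a * W ^ b = 0 →
    Z ≠ 0 ∧ O.valuation Z < 1 ∧
      (O.valuation Z = O.valuation W ^ r ∨ O.valuation W = O.valuation Z ^ r)

/-- The position of the centre of `O` with respect to the cusps of `X₀(a)`: `τ` = Hauptmodul,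
`J = j(q)`, `J' = j(q^a)`.  Either non cuspidal (`τ` is a unit), or `τ = ∞`, or `τ = 0`, or another
cusp. -/
def CuspType {F : Type} [Field F] (O : ValuationSubring F) (a : ℕ) (τ J J' : F) : Prop :=
  (J ∈ O ∧ O.valuation τ = 1) ∨
    (J ∉ O ∧ J' ∉ O ∧
      ((1 < O.valuation τ ∧ O.valuation J' = O.valuation J ^ a) ∨
        (O.valuation τ < 1 ∧ O.valuation J = O.valuation J' ^ a) ∨
        (O.valuation τ = 1 ∧ O.valuation J = O.valuation J')))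

/-- **MUT-T4**. -/
def Stmt_Type4 : Prop :=
  ∀ (F : Type) [Field F] (O : ValuationSubring F) (τ J J' : F), O.valuation (2 : F) = 1 →
    J * (τ ^ 4 * (τ + 16)) = (τ ^ 2 + 256 * τ + 4096) ^ 3 →
    J' * (τ * (τ + 16)) = (τ ^ 2 + 16 * τ + 16) ^ 3 → CuspType O 4 τ J J'

/-- **MUT-T9**. -/
def Stmt_Type9 : Prop :=
  ∀ (F : Type) [Field F] (O : ValuationSubring F) (τ J J' : F), O.valuation (3 : F) = 1 →
    J * (τ ^ 9 * (τ ^ 2 + 9 * τ + 27))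
      = ((τ + 9) * (τ ^ 3 + 243 * τ ^ 2 + 2187 * τ + 6561)) ^ 3 →
    J' * (τ * (τ ^ 2 + 9 * τ + 27)) = ((τ + 3) * (τ ^ 3 + 9 * τ ^ 2 + 27 * τ + 3)) ^ 3 →
    CuspType O 9 τ J J'

/-- **MUT-STEP** : the type does not change under `q ↦ q^r`, `gcd(a, r) = 1`. -/
def Stmt_CuspStep : Prop :=
  ∀ (F : Type) [Field F] (O : ValuationSubring F) (a r : ℕ) (τ J J' τ₁ J₁ J₁' : F), 2 ≤ a → 2 ≤ r →
    Nat.Coprime a r → τ ≠ 0 → τ₁ ≠ 0 → CuspType O a τ J J' → CuspType O a τ₁ J₁ J₁' →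
    (J ∈ O ↔ J₁ ∈ O) →
    (J ∉ O → O.valuation J₁ = O.valuation J ^ r ∨ O.valuation J = O.valuation J₁ ^ r) →
    (J' ∉ O → O.valuation J₁' = O.valuation J' ^ r ∨ O.valuation J' = O.valuation J₁' ^ r) →
    (τ ∈ O ↔ τ₁ ∈ O) ∧ (τ⁻¹ ∈ O ↔ τ₁⁻¹ ∈ O)

/-- **MUT-ABS**. -/
def Stmt_MutAbs : Prop :=
  ∀ (A₀ F : Type) [CommRing A₀] [Field F] [Algebra A₀ F] (a r : ℕ) (c : ℕ → ℕ → ℤ)
    (τ J J' τ₁ J₁ J₁' : F), 2 ≤ a → 2 ≤ r → Nat.Coprime a r → Reg.PhiShape r c →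
    τ ≠ 0 → τ₁ ≠ 0 → J ≠ 0 → J' ≠ 0 → J₁ ≠ 0 → J₁' ≠ 0 →
    (∀ O : ValuationSubring F, (∀ x : A₀, algebraMap A₀ F x ∈ O) → CuspType O a τ J J') →
    (∀ O : ValuationSubring F, (∀ x : A₀, algebraMap A₀ F x ∈ O) → CuspType O a τ₁ J₁ J₁') →
    (∀ Z W : F, (Z = J₁⁻¹ ∧ W = J⁻¹) ∨ (Z = J⁻¹ ∧ W = J₁⁻¹) ∨ (Z = J₁'⁻¹ ∧ W = J'⁻¹) ∨
        (Z = J'⁻¹ ∧ W = J₁'⁻¹) →
      ∑ i ∈ Finset.range (r + 2), ∑ j ∈ Finset.range (r + 2),
        ((c i j : ℤ) : F) * Z ^ i * W ^ j = 0) →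
    MutInt A₀ τ τ₁

/-! ## Part 2 : wrappers -/

/-- normality of the special fibre, valuation form (`V` = the vertical valuation ring): what [GRE]
delivers at level `M`. -/
def NorV (A₀ : Type) {F : Type} [CommRing A₀] [Field F] [Algebra A₀ F] (t : F)
    (V : ValuationSubring F) : Prop :=
  ∀ z ∈ V, (∃ p : (PolyR A₀ t)[X], p.Monic ∧ V.valuation (aeval z p) < 1) →
    ∃ y : F, IsIntegral (PolyR A₀ t) y ∧ V.valuation (z - y) < 1

/-- **LOC-NORV**. `NorV` gives `NorInt` (transitivity of integrality in the residue field of `V`). -/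
def Stmt_NorV : Prop :=
  ∀ (A₀ F : Type) [CommRing A₀] [Field F] [Algebra A₀ F] (t : F) (V : ValuationSubring F)
    (P : Ideal (Chart A₀ t)), P.IsPrime → IsCenV P V → NorV A₀ t V → NorInt F P

/-- **LOC-ISOV**. `Stmt_Iso` for two charts and two valuation rings.  `g` : `t ≡ ι g` modulo `P`. -/
def Stmt_IsoV : Prop :=
  ∀ (A₀ F' F : Type) [CommRing A₀] [Field F'] [Field F] [Algebra A₀ F'] [Algebra A₀ F]
    (ι : F' →+* F) (t' g : F') (t : F) (V : ValuationSubring F') (W : ValuationSubring F)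
    (P' : Ideal (Chart A₀ t')) (P : Ideal (Chart A₀ t)),
    IsFractionRing (Chart A₀ t') F' → IsFractionRing (Chart A₀ t) F →
    (∀ a : A₀, ι (algebraMap A₀ F' a) = algebraMap A₀ F a) →
    P'.IsPrime → P.IsPrime → IsCenV P' V → IsCenV P W → Over ι V W →
    IsIntegral (PolyR A₀ t) (ι t') →
    IsIntegral (PolyR A₀ t') g → W.valuation (t - ι g) < 1 →
    (∀ y : F, W.valuation y = 1 → ∃ y' : F', W.valuation (y - ι y') < 1) →
    NorInt F' P' →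
    IsoMod (B' := Chart A₀ t') ι P ∧ NorInt F P

/-- output of [LOC] : normality of all components on the chart with coordinate `t`. -/
def NorOut (A₀ F : Type) [CommRing A₀] [Field F] [Algebra A₀ F] (ϖ : A₀) (t : F) : Prop :=
  ∀ P ∈ (Ideal.span {cst A₀ t ϖ}).minimalPrimes, NorInt F P

/-- output of [LOC] : `D.LocAt` at all triple points of the chart with coordinate `t`. -/
def LocAtOut {A₀ F F₁ : Type} [CommRing A₀] [Field F] [Field F₁] [Algebra A₀ F] [Algebra A₀ F₁]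
    {o₁ o₂ o₃ : F → ℤ} {r : ℕ} (ϖ : A₀) (t : F) (D : Degen A₀ F F₁ o₁ o₂ o₃ r) : Prop :=
  ∀ ν : Ideal (Chart A₀ t), ν.IsMaximal → cst A₀ t ϖ ∈ ν →
    (∀ P ∈ (Ideal.span {cst A₀ t ϖ}).minimalPrimes, P ≤ ν) → D.LocAt ν

/-- **LOC-ATV**. `Stmt_LocAt` on a chart.  `s` = a coordinate of the lower level with
`Chart(t) = Chart(π s)`. -/
def Stmt_LocAtV : Prop :=
  ∀ (A₀ F F₁ : Type) [CommRing A₀] [IsDomain A₀] [IsDiscreteValuationRing A₀] [Field F] [CharZero F]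
    [Field F₁] [Algebra A₀ F] [FaithfulSMul A₀ F] [Algebra A₀ F₁] (ϖ : A₀) (t : F) (s : F₁) (r : ℕ)
    (o₁ o₂ o₃ : F → ℤ) (D : Degen A₀ F F₁ o₁ o₂ o₃ r),
    Irreducible ϖ → Transcendental A₀ t → FinOverR (PolyR A₀ t) F → 1 ≤ r →
    (∀ P ∈ (Ideal.span {cst A₀ t ϖ}).minimalPrimes, IsCen P o₁ ∨ IsCen P o₂ ∨ IsCen P o₃) →
    (∃ P ∈ (Ideal.span {cst A₀ t ϖ}).minimalPrimes, IsCen P o₁) →
    (∃ P ∈ (Ideal.span {cst A₀ t ϖ}).minimalPrimes, IsCen P o₂) →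
    (∃ P ∈ (Ideal.span {cst A₀ t ϖ}).minimalPrimes, IsCen P o₃) →
    (∀ x : F, D.N x = @Algebra.norm F₁ F _ _ D.π.toAlgebra x) →
    @Module.finrank F₁ F _ _ D.π.toAlgebra.toModule = r →
    IsIntegral (PolyR A₀ t) (D.π s) → IsIntegral (PolyR A₀ (D.π s)) t →
    (∀ P ∈ (Ideal.span {cst A₀ t ϖ}).minimalPrimes, IsCen P o₁ ∨ IsCen P o₂ →
      ∀ b : Chart A₀ t, ∃ x : F₁, IsIntegral (PolyR A₀ t) (D.π x) ∧
        PosAt P (algebraMap (Chart A₀ t) F b - D.π x)) →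
    LocAtOut ϖ t D

/-! ## Part 3 : the abstract main theorem -/

/-- The hypotheses of the abstract main theorem.  `F₀, F₁, F` = levels `M, r M, r² M`;
`i` = inclusions, `v` = `q ↦ q^r`; `V₀` Gauss, `VA, VC` the two vertical rings of `F₁`,
`O 0, O 1, O 2 = A, mid, C`. -/
structure LocHyp {A₀ F₀ F₁ F : Type} [CommRing A₀] [Field F₀] [Field F₁] [Field F] [Algebra A₀ F₀]
    [Algebra A₀ F₁] [Algebra A₀ F] (ϖ : A₀) (r : ℕ) (t₀ : F₀) (i01 v01 : F₀ →+* F₁)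
    (i12 v12 : F₁ →+* F) (V₀ : ValuationSubring F₀) (VA VC : ValuationSubring F₁)
    (O : Fin 3 → ValuationSubring F) (ord : Fin 3 → F → ℤ) : Prop where
  irr : Irreducible ϖ
  hr : 1 ≤ r
  tr₀ : Transcendental A₀ t₀
  fin₀ : FinOverR (PolyR A₀ t₀) F₀
  tr : Transcendental A₀ (i12 (i01 t₀))
  fin : FinOverR (PolyR A₀ (i12 (i01 t₀))) F
  c_i01 : ∀ a : A₀, i01 (algebraMap A₀ F₀ a) = algebraMap A₀ F₁ a
  c_v01 : ∀ a : A₀, v01 (algebraMap A₀ F₀ a) = algebraMap A₀ F₁ a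
  c_i12 : ∀ a : A₀, i12 (algebraMap A₀ F₁ a) = algebraMap A₀ F a
  c_v12 : ∀ a : A₀, v12 (algebraMap A₀ F₁ a) = algebraMap A₀ F a
  vert₀ : IsVert A₀ ϖ t₀ V₀
  nor₀ : NorV A₀ t₀ V₀
  nor₀' : NorV A₀ t₀⁻¹ V₀
  o_i01 : Over i01 V₀ VA
  o_v01 : Over v01 V₀ VC
  o_iA : Over i12 VA (O 0)
  o_iM : Over i12 VA (O 1)
  o_vC : Over v12 VC (O 2)
  o_vM : Over v12 VC (O 1)
  resA : ∀ x ∈ VA, ∃ c ∈ V₀, VA.valuation (x - i01 c) < 1
  resC : ∀ x ∈ VC, ∃ c ∈ V₀, VC.valuation (x - v01 c) < 1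
  cen : CenOut A₀ F ϖ (i12 (i01 t₀)) O ord
  cen' : CenOut A₀ F ϖ (i12 (i01 t₀))⁻¹ O ord
  vert : ∀ X, IsVert A₀ ϖ (i12 (i01 t₀)) (O X)
  hmut : MutInt A₀ (i12 (i01 t₀)) (v12 (v01 t₀))
  congM : (O 1).valuation (i12 (i01 t₀) - v12 (v01 t₀)) < 1
  congC : (O 2).valuation (i12 (i01 t₀) - v12 (v01 t₀) ^ (r ^ 2)) < 1

/-- **LOC-SIDE** : one "side" (`π = D.π`, `ι = π ∘ ι₁`) on one chart: normality and (ISO) for the
components `o₁`, `o₂` of `D`. -/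
def Stmt_Side : Prop :=
  ∀ (A₀ F₀ F₁ F : Type) [CommRing A₀] [IsDomain A₀] [IsDiscreteValuationRing A₀]
    [Field F₀] [CharZero F₀] [Algebra A₀ F₀] [FaithfulSMul A₀ F₀] [Field F₁] [Algebra A₀ F₁]
    [Field F] [CharZero F] [Algebra A₀ F] [FaithfulSMul A₀ F]
    (ϖ : A₀) (t₀ g₁ g₂ : F₀) (t : F) (r : ℕ) (ι₁ : F₀ →+* F₁) (o₁ o₂ o₃ : F → ℤ)
    (D : Degen A₀ F F₁ o₁ o₂ o₃ r) (V₀ : ValuationSubring F₀) (V₁ : ValuationSubring F₁)
    (W₁ W₂ : ValuationSubring F),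
    Irreducible ϖ → Transcendental A₀ t₀ → FinOverR (PolyR A₀ t₀) F₀ → Transcendental A₀ t →
    FinOverR (PolyR A₀ t) F → (∀ a : A₀, ι₁ (algebraMap A₀ F₀ a) = algebraMap A₀ F₁ a) →
    IsVert A₀ ϖ t₀ V₀ → NorV A₀ t₀ V₀ → Over ι₁ V₀ V₁ → Over D.π V₁ W₁ → Over D.π V₁ W₂ →
    (∀ x ∈ V₁, ∃ c ∈ V₀, V₁.valuation (x - ι₁ c) < 1) →
    IsIntegral (PolyR A₀ t) (D.π (ι₁ t₀)) →
    IsIntegral (PolyR A₀ t₀) g₁ → W₁.valuation (t - D.π (ι₁ g₁)) < 1 →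
    IsIntegral (PolyR A₀ t₀) g₂ → W₂.valuation (t - D.π (ι₁ g₂)) < 1 →
    ∀ P : Ideal (Chart A₀ t), P.IsPrime →
      (IsCenV P W₁ ∧ IsCen P o₁) ∨ (IsCenV P W₂ ∧ IsCen P o₂) →
      NorInt F P ∧ IsoMod (B' := Chart A₀ t₀) (D.π.comp ι₁) P

/-- **LOC-ABS** : the abstract main theorem. -/
def Stmt_LocAbs : Prop :=
  ∀ (A₀ F₀ F₁ F : Type) [CommRing A₀] [IsDomain A₀] [IsDiscreteValuationRing A₀]
    [Field F₀] [CharZero F₀] [Algebra A₀ F₀] [FaithfulSMul A₀ F₀] [Field F₁] [Algebra A₀ F₁]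
    [Field F] [CharZero F] [Algebra A₀ F] [FaithfulSMul A₀ F]
    (ϖ : A₀) (r : ℕ) (t₀ : F₀) (i01 v01 : F₀ →+* F₁) (i12 v12 : F₁ →+* F)
    (V₀ : ValuationSubring F₀) (VA VC : ValuationSubring F₁) (O : Fin 3 → ValuationSubring F)
    (ord : Fin 3 → F → ℤ), LocHyp ϖ r t₀ i01 v01 i12 v12 V₀ VA VC O ord →
    ∀ (D₁ : Degen A₀ F F₁ (ord 0) (ord 1) (ord 2) r) (D₂ : Degen A₀ F F₁ (ord 2) (ord 1) (ord 0) r),
      D₁.π = i12 → (∀ x, D₁.N x = @Algebra.norm F₁ F _ _ i12.toAlgebra x) →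
      @Module.finrank F₁ F _ _ i12.toAlgebra.toModule = r →
      D₂.π = v12 → (∀ x, D₂.N x = @Algebra.norm F₁ F _ _ v12.toAlgebra x) →
      @Module.finrank F₁ F _ _ v12.toAlgebra.toModule = r →
      NorOut A₀ F ϖ (i12 (i01 t₀)) ∧ NorOut A₀ F ϖ (i12 (i01 t₀))⁻¹ ∧
        LocAtOut ϖ (i12 (i01 t₀)) D₁ ∧ LocAtOut ϖ (i12 (i01 t₀)) D₂

/-! ## Part 4 : the concrete inputs -/

/-- **LOC-RES** : in the situation of `Val.Stmt_Class2` the residue extension of `W₁ / V` is trivial. -/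
def Stmt_Class2Res : Prop :=
  ∀ (K L : Type) [Field K] [Field L] [CharZero K] (π : K →+* L) (r : ℕ)
    (V : ValuationSubring K) (W₁ W₃ : ValuationSubring L) (g : L), 0 < r →
    DegLE π (r + 1) → NR.IsUnif V (r : K) → Over π V W₁ → Over π V W₃ → W₁ ≠ W₃ →
    ResIndep π V W₃ (fun i : Fin r => g ^ (i : ℕ)) →
    ∀ x ∈ W₁, ∃ c ∈ V, W₁.valuation (x - π c) < 1

/-- **LOC-V01** : the map `q ↦ q^r` from level `M` to level `r M`. -/
def Stmt_V01 : Prop :=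
  ∀ (A : ValuationSubring Qbar) (r M : ℕ) [NeZero r] [NeZero M] [NeZero (r * M)]
    [NeZero (r ^ 2 * M)] (C : Ctx A r M) (v01 : FE A M →+* FE A (r * M)), IsVE A r v01 →
    (∀ x, phiA A (r * M) (v01 x) = qExpand Qbar r (phiA A M x)) ∧
    (∀ x, phiC A C.W1 (v01 x) = phiA A M x) ∧
    Over v01 (OA A M) (OA A (r * M)) ∧ Over v01 (OA A M) (OC A C.W1) ∧
    (∀ a : AE A, v01 (algebraMap (AE A) (FE A M) a) = algebraMap (AE A) (FE A (r * M)) a) ∧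
    ResIndep v01 (OA A M) (OA A (r * M)) (fun i : Fin r => jE A (r * M) 1 ^ (i : ℕ))

/-- **LOC-V01D** : its degree. -/
def Stmt_V01Deg : Prop :=
  ∀ (A : ValuationSubring Qbar) (r M : ℕ) [NeZero r] [NeZero M] [NeZero (r * M)]
    [NeZero (r ^ 2 * M)] (_C : Ctx A r M) (v01 : FE A M →+* FE A (r * M)), IsVE A r v01 →
    DegLE v01 (r + 1)

/-- **LOC-CONG** : `ι_A ≡ ι_C` on the middle component; Frobenius on the component `C`. -/
def Stmt_Cong : Prop :=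
  ∀ (A : ValuationSubring Qbar) (r M : ℕ) [NeZero r] [NeZero M] [NeZero (r * M)]
    [NeZero (r ^ 2 * M)] (C : Ctx A r M) (v01 : FE A M →+* FE A (r * M)), IsVE A r v01 →
    (∀ x ∈ OA A M, (C.O 1).valuation (C.i12 (C.i01 x) - C.v12 (v01 x)) < 1) ∧
    (∀ x : FE A M, (∃ s : LaurentSeries ℤ, (x : Base.LE A) = coeffMap (Int.castRingHom (IE A)) s) →
      (C.O 2).valuation (C.i12 (C.i01 x) - C.v12 (v01 x) ^ (r ^ 2)) < 1)

/-- **LOC-MUT** : mutual integrality of `t_a(q)` and `t_a(q^(r²))`. -/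
def Stmt_Mut : Prop :=
  ∀ (A : ValuationSubring Qbar) (r M a : ℕ) [NeZero r] [NeZero M] [NeZero (r * M)]
    [NeZero (r ^ 2 * M)] (C : Ctx A r M) (v01 : FE A M →+* FE A (r * M)) (t₀ : FE A M),
    IsVE A r v01 → (a = 4 ∨ a = 9) → a ∣ M → Nat.Coprime a r →
    (t₀ : Base.LE A) = HM.tq a (IE A) →
    MutInt (AE A) (C.i12 (C.i01 t₀)) (C.v12 (v01 t₀))

/-- **LOC-MAIN** : the final output of [LOC].  Inputs: [GRE] (`GoodCoord`, `NorV`), `t₀ = t_a`. -/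
def Stmt_LocMain : Prop :=
  ∀ (A : ValuationSubring Qbar) (r M a : ℕ) [NeZero r] [NeZero M] [NeZero (r * M)]
    [NeZero (r ^ 2 * M)] [IsDiscreteValuationRing (AE A)] (C : Ctx A r M) (t₀ : FE A M),
    (a = 4 ∨ a = 9) → a ∣ M → Nat.Coprime a r → (t₀ : Base.LE A) = HM.tq a (IE A) →
    GoodCoord A r M t₀ → NorV (AE A) t₀ (OA A M) → NorV (AE A) t₀⁻¹ (OA A M) →
    ∀ (D₁ : Degen (AE A) (FE A (r ^ 2 * M)) (FE A (r * M)) (C.ord 0) (C.ord 1) (C.ord 2) r)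
      (D₂ : Degen (AE A) (FE A (r ^ 2 * M)) (FE A (r * M)) (C.ord 2) (C.ord 1) (C.ord 0) r),
      D₁.π = C.i12 → (∀ x, D₁.N x = @Algebra.norm _ _ _ _ C.i12.toAlgebra x) →
      D₂.π = C.v12 → (∀ x, D₂.N x = @Algebra.norm _ _ _ _ C.v12.toAlgebra x) →
      NorOut (AE A) (FE A (r ^ 2 * M)) ((r : ℕ) : AE A) (C.i12 (C.i01 t₀)) ∧
        NorOut (AE A) (FE A (r ^ 2 * M)) ((r : ℕ) : AE A) (C.i12 (C.i01 t₀))⁻¹ ∧
        LocAtOut ((r : ℕ) : AE A) (C.i12 (C.i01 t₀)) D₁ ∧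
        LocAtOut ((r : ℕ) : AE A) (C.i12 (C.i01 t₀)) D₂

end Fermat.Agent.S36.Loc

end
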