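/-
TEAM S36, block [LOC], task MUT-CRIT (helper26): valuative criterion of integrality over `A₀[t]`
and transitivity of `MutInt`.
-/
import Fermat.Agent.S36.Loc.Interface2

set_option autoImplicit false

namespace Fermat.Agent.S36.Loc

open Fermat.Agent.KL Polynomial

/-- change of the base subring for integrality (abstract form). -/
theorem ValCrit_isIntegral_of_le {F R₁ R₂ : Type} [Field F] [CommRing R₁] [CommRing R₂]
    [Algebra R₁ F] [Algebra R₂ F] (ι : R₁ →+* R₂)
    (hι : ∀ a, algebraMap R₂ F (ι a) = algebraMap R₁ F a) {x : F} (hx : IsIntegral R₁ x) :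
    IsIntegral R₂ x := by
  obtain ⟨p, hp, he⟩ := hx
  refine ⟨p.map ι, hp.map ι, ?_⟩
  rw [eval₂_map]
  have : (algebraMap R₂ F).comp ι = algebraMap R₁ F := RingHom.ext hι
  rw [this]
  exact he

/-- the valuative criterion for an abstract subalgebra `S` containing the ring generated by `s`. -/
theorem ValCrit_abs {A₀ F : Type} [CommRing A₀] [Field F] [Algebra A₀ F] (S : Subalgebra A₀ F)
    (s : Set F) (hs : s ⊆ S) (x : F)
    (h : ∀ O : ValuationSubring F, s ⊆ O → x ∈ O) : IsIntegral S x := by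
  have hx : x ∈ (⨅ V : {V : ValuationSubring F // s ⊆ V.toSubring}, V.1.toSubring) := by
    rw [Subring.mem_iInf]
    intro V
    exact h V.1 V.2
  rw [iInf_valuationSubring_superset] at hx
  have hx' : IsIntegral (Subring.closure s) x := hx
  have hle : ∀ z : Subring.closure s, (z : F) ∈ S := by
    intro z
    have : Subring.closure s ≤ S.toSubring := Subring.closure_le.2 hs
    exact this z.2
  exact ValCrit_isIntegral_of_le ((Subring.closure s).subtype.codRestrict S hle)
    (fun a => rfl) hx'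

/-- the converse for an abstract subalgebra contained in the valuation ring. -/
theorem ValCrit_conv_abs {A₀ F : Type} [CommRing A₀] [Field F] [Algebra A₀ F]
    (S : Subalgebra A₀ F) (O : ValuationSubring F) (hS : ∀ z : S, (z : F) ∈ O) {x : F}
    (hx : IsIntegral S x) : x ∈ O := by
  have h1 : IsIntegral O x :=
    ValCrit_isIntegral_of_le (S.val.toRingHom.codRestrict O hS) (fun a => rfl) hx
  obtain ⟨y, hy⟩ := (IsIntegrallyClosed.isIntegral_iff (R := O) (K := F)).1 h1
  rw [← hy]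
  exact y.2

theorem valCrit : Stmt_ValCrit := by
  intro A₀ F _ _ _ t x h
  refine ValCrit_abs (PolyR A₀ t) (Set.range (algebraMap A₀ F) ∪ {t}) ?_ x ?_
  · rintro z (⟨a, rfl⟩ | hz)
    · exact Subalgebra.algebraMap_mem _ a
    · rw [Set.mem_singleton_iff.1 hz]
      exact Algebra.self_mem_adjoin_singleton A₀ t
  · intro O hO
    exact h O (fun a => hO (Or.inl ⟨a, rfl⟩)) (hO (Or.inr rfl))

theorem valCrit_conv (A₀ F : Type) [CommRing A₀] [Field F] [Algebra A₀ F] (t x : F)
    (hx : IsIntegral (PolyR A₀ t) x) (O : ValuationSubring F)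
    (hA : ∀ a : A₀, algebraMap A₀ F a ∈ O) (ht : t ∈ O) : x ∈ O := by
  refine ValCrit_conv_abs (PolyR A₀ t) O ?_ hx
  intro z
  let O' : Subalgebra A₀ F := { O.toSubring.toSubsemiring with algebraMap_mem' := hA }
  have hle : Algebra.adjoin A₀ {t} ≤ O' := Algebra.adjoin_le (by
    intro y hy
    rw [Set.mem_singleton_iff.1 hy]
    exact ht)
  exact hle z.2

theorem ValCrit_trans (A₀ F : Type) [CommRing A₀] [Field F] [Algebra A₀ F] (x y z : F)
    (h1 : IsIntegral (PolyR A₀ x) y) (h2 : IsIntegral (PolyR A₀ y) z) :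
    IsIntegral (PolyR A₀ x) z :=
  valCrit A₀ F x z fun O hA hx =>
    valCrit_conv A₀ F y z h2 O hA (valCrit_conv A₀ F x y h1 O hA hx)

theorem mutTrans : Stmt_MutTrans := by
  intro A₀ F _ _ _ x y z h1 h2
  exact ⟨ValCrit_trans A₀ F x y z h1.1 h2.1, ValCrit_trans A₀ F z y x h2.2.1 h1.2.1,
    ValCrit_trans A₀ F x⁻¹ y⁻¹ z⁻¹ h1.2.2.1 h2.2.2.1,
    ValCrit_trans A₀ F z⁻¹ y⁻¹ x⁻¹ h2.2.2.2 h1.2.2.2⟩

end Fermat.Agent.S36.Loc
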