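/-
S36 / Loc, task LOC-ABS (helper92): the abstract main theorem `Stmt_LocAbs`.
-/
import Fermat.Agent.S36.Loc.Interface2
import Fermat.Agent.S36.Loc.ValCrit
import Fermat.Agent.KL.PolyRing4

set_option autoImplicit false

noncomputable section

namespace Fermat.Agent.S36.Loc

open Fermat.Agent
open Fermat.Agent.KL (Chart PolyR cst crd FinOverR stmt_polyRConcrete)
open Fermat.Agent.S36.Val
open Polynomial

/-! ## integrality -/

/-- the image of an integral element under an `A₀`-compatible ring homomorphism. -/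
theorem Abs_isIntegral_map {A₀ F' F : Type} [CommRing A₀] [Field F'] [Field F] [Algebra A₀ F']
    [Algebra A₀ F] (φ : F' →+* F) (hφ : ∀ a : A₀, φ (algebraMap A₀ F' a) = algebraMap A₀ F a)
    (s y : F') (hy : IsIntegral (PolyR A₀ s) y) : IsIntegral (PolyR A₀ (φ s)) (φ y) := by
  refine valCrit A₀ F (φ s) (φ y) fun O hA hs => ?_
  have h := valCrit_conv A₀ F' s y hy (O.comap φ)
    (fun a => by rw [ValuationSubring.mem_comap, hφ]; exact hA a) hs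
  exact h

theorem Abs_isIntegral_self (A₀ : Type) {F : Type} [CommRing A₀] [Field F] [Algebra A₀ F] (t : F) :
    IsIntegral (PolyR A₀ t) t :=
  isIntegral_algebraMap (R := PolyR A₀ t) (A := F)
    (x := ⟨t, Algebra.self_mem_adjoin_singleton A₀ t⟩)

/-! ## valuations -/

theorem Abs_val_one_of_sub {F : Type*} [Field F] (W : ValuationSubring F) {a b : F}
    (ha : W.valuation a = 1) (h : W.valuation (a - b) < 1) : W.valuation b = 1 := by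
  have e : b = a - (a - b) := by ring
  rw [e, Valuation.map_sub_eq_of_lt_left _ (by rw [ha]; exact h), ha]

theorem Abs_val_inv_sub {F : Type*} [Field F] (W : ValuationSubring F) {a b : F}
    (ha : W.valuation a = 1) (hb : W.valuation b = 1) (h : W.valuation (a - b) < 1) :
    W.valuation (a⁻¹ - b⁻¹) < 1 := by
  have ha0 : a ≠ 0 := by rintro rfl; simp at ha
  have hb0 : b ≠ 0 := by rintro rfl; simp at hb
  have e : a⁻¹ - b⁻¹ = (b - a) * (a⁻¹ * b⁻¹) := by field_simp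
  rw [e, map_mul, map_mul, map_inv₀, map_inv₀, ha, hb, Valuation.map_sub_swap]
  simpa using h

/-! ## uniqueness of the centre -/

theorem Abs_posAt_iff {B F : Type*} [CommRing B] [Field F] [Algebra B F]
    (hinj : Function.Injective (algebraMap B F)) {P : Ideal B} (hP : P.IsPrime) (c : B) :
    PosAt P (algebraMap B F c) ↔ c ∈ P := by
  constructor
  · rintro ⟨s, hs, p, hp, e⟩
    have h1 : s * c = p := hinj (by rw [map_mul, e])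
    exact (hP.mem_or_mem (h1 ▸ hp : s * c ∈ P)).resolve_left hs
  · intro hc
    exact ⟨1, fun h => hP.ne_top ((Ideal.eq_top_iff_one _).2 h), c, hc, by rw [map_one, one_mul]⟩

theorem Abs_cen_unique {B F : Type*} [CommRing B] [Field F] [Algebra B F]
    (hinj : Function.Injective (algebraMap B F)) {P P' : Ideal B} (hP : P.IsPrime)
    (hP' : P'.IsPrime) (o : F → ℤ) (h : IsCen P o) (h' : IsCen P' o) : P = P' := by
  ext c
  rw [← Abs_posAt_iff hinj hP, ← Abs_posAt_iff hinj hP', (h _).1, (h' _).1]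

/-! ## one chart -/

section Chart

variable {A₀ F₀ F₁ F : Type} [CommRing A₀] [IsDomain A₀] [IsDiscreteValuationRing A₀]
  [Field F₀] [CharZero F₀] [Algebra A₀ F₀] [FaithfulSMul A₀ F₀] [Field F₁] [Algebra A₀ F₁]
  [Field F] [CharZero F] [Algebra A₀ F] [FaithfulSMul A₀ F]

/-- both sides on one chart (`s₀` = coordinate of level `M`, `t` = coordinate of the chart). -/
theorem Abs_chart (h1 : Stmt_Side) (ϖ : A₀) (r : ℕ) (s₀ : F₀) (t : F) (i01 v01 : F₀ →+* F₁)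
    (V₀ : ValuationSubring F₀) (VA VC : ValuationSubring F₁) (O : Fin 3 → ValuationSubring F)
    (ord : Fin 3 → F → ℤ) (D₁ : Degen A₀ F F₁ (ord 0) (ord 1) (ord 2) r)
    (D₂ : Degen A₀ F F₁ (ord 2) (ord 1) (ord 0) r) (irr : Irreducible ϖ)
    (tr₀ : Transcendental A₀ s₀) (fin₀ : FinOverR (PolyR A₀ s₀) F₀) (tr : Transcendental A₀ t)
    (fin : FinOverR (PolyR A₀ t) F)
    (c_i01 : ∀ a : A₀, i01 (algebraMap A₀ F₀ a) = algebraMap A₀ F₁ a)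
    (c_v01 : ∀ a : A₀, v01 (algebraMap A₀ F₀ a) = algebraMap A₀ F₁ a)
    (vert₀ : IsVert A₀ ϖ s₀ V₀) (nor₀ : NorV A₀ s₀ V₀) (o_i01 : Over i01 V₀ VA)
    (o_v01 : Over v01 V₀ VC) (o_iA : Over D₁.π VA (O 0)) (o_iM : Over D₁.π VA (O 1))
    (o_vC : Over D₂.π VC (O 2)) (o_vM : Over D₂.π VC (O 1))
    (resA : ∀ x ∈ VA, ∃ c ∈ V₀, VA.valuation (x - i01 c) < 1)
    (resC : ∀ x ∈ VC, ∃ c ∈ V₀, VC.valuation (x - v01 c) < 1)
    (cen : CenOut A₀ F ϖ t O ord)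
    (hint₁ : IsIntegral (PolyR A₀ t) (D₁.π (i01 s₀)))
    (hint₂ : IsIntegral (PolyR A₀ t) (D₂.π (v01 s₀)))
    (cA : (O 0).valuation (t - D₁.π (i01 s₀)) < 1)
    (cM₁ : (O 1).valuation (t - D₁.π (i01 s₀)) < 1)
    (cC : (O 2).valuation (t - D₂.π (v01 (s₀ ^ (r ^ 2)))) < 1)
    (cM₂ : (O 1).valuation (t - D₂.π (v01 s₀)) < 1) :
    NorOut A₀ F ϖ t ∧
    (∀ P : Ideal (Chart A₀ t), P.IsPrime →
      (IsCenV P (O 0) ∧ IsCen P (ord 0)) ∨ (IsCenV P (O 1) ∧ IsCen P (ord 1)) →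
      NorInt F P ∧ IsoMod (B' := Chart A₀ s₀) (D₁.π.comp i01) P) ∧
    (∀ P : Ideal (Chart A₀ t), P.IsPrime →
      (IsCenV P (O 2) ∧ IsCen P (ord 2)) ∨ (IsCenV P (O 1) ∧ IsCen P (ord 1)) →
      NorInt F P ∧ IsoMod (B' := Chart A₀ s₀) (D₂.π.comp v01) P) := by
  have hs : IsIntegral (PolyR A₀ s₀) s₀ := Abs_isIntegral_self A₀ s₀
  have S₁ := h1 A₀ F₀ F₁ F ϖ s₀ s₀ s₀ t r i01 (ord 0) (ord 1) (ord 2) D₁ V₀ VA (O 0) (O 1)
    irr tr₀ fin₀ tr fin c_i01 vert₀ nor₀ o_i01 o_iA o_iM resA hint₁ hs cA hs cM₁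
  have S₂ := h1 A₀ F₀ F₁ F ϖ s₀ (s₀ ^ (r ^ 2)) s₀ t r v01 (ord 2) (ord 1) (ord 0) D₂ V₀ VC (O 2)
    (O 1) irr tr₀ fin₀ tr fin c_v01 vert₀ nor₀ o_v01 o_vC o_vM resC hint₂ (hs.pow _) cC hs cM₂
  refine ⟨?_, S₁, S₂⟩
  intro P hP
  have hPp : P.IsPrime := hP.1.1
  obtain ⟨X, hX⟩ := cen.1 P hP
  fin_cases X
  · exact (S₁ P hPp (Or.inl hX)).1
  · exact (S₁ P hPp (Or.inr hX)).1
  · exact (S₂ P hPp (Or.inl hX)).1

omit [CharZero F₀] [FaithfulSMul A₀ F₀] in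
/-- `LocAtOut` from one side. -/
theorem Abs_locAt (h2 : Stmt_LocAtV) (ϖ : A₀) (r : ℕ) (t₀ : F₀) (t : F) (ι₁ : F₀ →+* F₁)
    (O : Fin 3 → ValuationSubring F) (ord : Fin 3 → F → ℤ) (X₁ X₂ X₃ : Fin 3)
    (hX : ∀ X : Fin 3, X = X₁ ∨ X = X₂ ∨ X = X₃)
    (D : Degen A₀ F F₁ (ord X₁) (ord X₂) (ord X₃) r) (irr : Irreducible ϖ)
    (tr : Transcendental A₀ t) (fin : FinOverR (PolyR A₀ t) F) (hr : 1 ≤ r)
    (cen : CenOut A₀ F ϖ t O ord)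
    (hN : ∀ x : F, D.N x = @Algebra.norm F₁ F _ _ D.π.toAlgebra x)
    (hfr : @Module.finrank F₁ F _ _ D.π.toAlgebra.toModule = r)
    (hc : ∀ a : A₀, ι₁ (algebraMap A₀ F₀ a) = algebraMap A₀ F₁ a)
    (hi₁ : IsIntegral (PolyR A₀ t) (D.π (ι₁ t₀))) (hi₂ : IsIntegral (PolyR A₀ (D.π (ι₁ t₀))) t)
    (hside : ∀ P : Ideal (Chart A₀ t), P.IsPrime →
      (IsCenV P (O X₁) ∧ IsCen P (ord X₁)) ∨ (IsCenV P (O X₂) ∧ IsCen P (ord X₂)) →
      NorInt F P ∧ IsoMod (B' := Chart A₀ t₀) (D.π.comp ι₁) P) :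
    LocAtOut ϖ t D := by
  have hinj : Function.Injective (algebraMap (Chart A₀ t) F) := Subtype.val_injective
  have hex : ∀ X, ∃ P ∈ (Ideal.span {cst A₀ t ϖ}).minimalPrimes, IsCen P (ord X) := by
    intro X
    obtain ⟨P, hP, -, h⟩ := cen.2 X
    exact ⟨P, hP, h⟩
  -- `IsCen P (ord X)` implies `IsCenV P (O X)`
  have hV : ∀ P ∈ (Ideal.span {cst A₀ t ϖ}).minimalPrimes, ∀ X, IsCen P (ord X) →
      IsCenV P (O X) := by
    intro P hP X hPX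
    obtain ⟨P', hP', hV', hC'⟩ := cen.2 X
    have e : P = P' := Abs_cen_unique hinj hP.1.1 hP'.1.1 (ord X) hPX hC'
    rw [e]
    exact hV'
  refine h2 A₀ F F₁ ϖ t (ι₁ t₀) r (ord X₁) (ord X₂) (ord X₃) D irr tr fin hr ?_ (hex X₁) (hex X₂)
    (hex X₃) hN hfr hi₁ hi₂ ?_
  · intro P hP
    obtain ⟨X, -, h⟩ := cen.1 P hP
    rcases hX X with rfl | rfl | rfl
    · exact Or.inl h
    · exact Or.inr (Or.inl h)
    · exact Or.inr (Or.inr h)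
  · intro P hP hcase b
    have hcase' : (IsCenV P (O X₁) ∧ IsCen P (ord X₁)) ∨ (IsCenV P (O X₂) ∧ IsCen P (ord X₂)) := by
      rcases hcase with h | h
      · exact Or.inl ⟨hV P hP X₁ h, h⟩
      · exact Or.inr ⟨hV P hP X₂ h, h⟩
    obtain ⟨y, hy⟩ := (hside P hP.1.1 hcase').2 b
    refine ⟨ι₁ (algebraMap (Chart A₀ t₀) F₀ y), ?_, hy⟩
    have h3 : IsIntegral (PolyR A₀ t₀) (algebraMap (Chart A₀ t₀) F₀ y) := y.2
    have h4 := Abs_isIntegral_map (D.π.comp ι₁)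
      (fun a => by rw [RingHom.comp_apply, hc, D.π_const]) t₀ _ h3
    exact ValCrit_trans A₀ F t _ _ hi₁ h4

end Chart

/-- **LOC-ABS**. -/
theorem locAbs (h1 : Stmt_Side) (h2 : Stmt_LocAtV) (h3 : Val.Stmt_VertInv) : Stmt_LocAbs := by
  intro A₀ F₀ F₁ F _ _ _ _ _ _ _ _ _ _ _ _ _ ϖ r t₀ i01 v01 i12 v12 V₀ VA VC O ord H D₁ D₂
    hπ₁ hN₁ hf₁ hπ₂ hN₂ hf₂
  subst hπ₁
  subst hπ₂
  have hprime : Prime ϖ := H.irr.prime
  have hr2 : r ^ 2 ≠ 0 := pow_ne_zero _ (by have := H.hr; omega)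
  -- units
  have hvt : ∀ X, (O X).valuation (D₁.π (i01 t₀)) = 1 := by
    intro X
    have := (H.vert X).2.2.2 Polynomial.X ⟨1, by
      rw [coeff_X_one]
      exact fun hd => H.irr.not_isUnit (isUnit_of_dvd_one hd)⟩
    rwa [aeval_X] at this
  have hu1 : (O 1).valuation (D₂.π (v01 t₀)) = 1 := Abs_val_one_of_sub _ (hvt 1) H.congM
  have hu2 : (O 2).valuation (D₂.π (v01 t₀) ^ (r ^ 2)) = 1 := Abs_val_one_of_sub _ (hvt 2) H.congC
  have hself := Abs_isIntegral_self A₀ (D₁.π (i01 t₀))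
  -- the chart `t`
  obtain ⟨N₁, S₁, S₂⟩ := Abs_chart h1 ϖ r t₀ (D₁.π (i01 t₀)) i01 v01 V₀ VA VC O ord D₁ D₂ H.irr
    H.tr₀ H.fin₀ H.tr H.fin H.c_i01 H.c_v01 H.vert₀ H.nor₀ H.o_i01 H.o_v01 H.o_iA H.o_iM H.o_vC
    H.o_vM H.resA H.resC H.cen hself H.hmut.1 (by rw [sub_self, map_zero]; exact zero_lt_one)
    (by rw [sub_self, map_zero]; exact zero_lt_one) (by rw [map_pow, map_pow]; exact H.congC)
    H.congM
  -- the chart `t⁻¹`
  obtain ⟨-, tr₀', fin₀'⟩ := stmt_polyRConcrete A₀ F₀ t₀ H.tr₀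
  obtain ⟨-, tr', fin'⟩ := stmt_polyRConcrete A₀ F (D₁.π (i01 t₀)) H.tr
  have e₁ : D₁.π (i01 t₀⁻¹) = (D₁.π (i01 t₀))⁻¹ := by rw [map_inv₀, map_inv₀]
  have e₂ : D₂.π (v01 t₀⁻¹) = (D₂.π (v01 t₀))⁻¹ := by rw [map_inv₀, map_inv₀]
  obtain ⟨N₂, -, -⟩ := Abs_chart h1 ϖ r t₀⁻¹ (D₁.π (i01 t₀))⁻¹ i01 v01 V₀ VA VC O ord D₁ D₂ H.irr
    tr₀' (fin₀' H.fin₀) tr' (fin' H.fin) H.c_i01 H.c_v01 (h3 A₀ F₀ ϖ t₀ V₀ hprime H.vert₀) H.nor₀'
    H.o_i01 H.o_v01 H.o_iA H.o_iM H.o_vC H.o_vM H.resA H.resC H.cen'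
    (by rw [e₁]; exact Abs_isIntegral_self A₀ _) (by rw [e₂]; exact H.hmut.2.2.1)
    (by rw [e₁, sub_self, map_zero]; exact zero_lt_one)
    (by rw [e₁, sub_self, map_zero]; exact zero_lt_one)
    (by
      rw [map_pow, map_pow, e₂, inv_pow]
      exact Abs_val_inv_sub _ (hvt 2) hu2 H.congC)
    (by rw [e₂]; exact Abs_val_inv_sub _ (hvt 1) hu1 H.congM)
  refine ⟨N₁, N₂, ?_, ?_⟩
  · exact Abs_locAt h2 ϖ r t₀ (D₁.π (i01 t₀)) i01 O ord 0 1 2 (by decide) D₁ H.irr H.tr H.fin H.hr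
      H.cen hN₁ hf₁ H.c_i01 hself hself S₁
  · exact Abs_locAt h2 ϖ r t₀ (D₁.π (i01 t₀)) v01 O ord 2 1 0 (by decide) D₂ H.irr H.tr H.fin H.hr
      H.cen hN₂ hf₂ H.c_v01 H.hmut.1 H.hmut.2.1 S₂

end Fermat.Agent.S36.Loc

end
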