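import Fermat.Agent.S36.Loc.Interface

/-!
# S36 / Loc, task LOC-AT (helper77): `Degen.LocAt` at a triple point
-/

set_option autoImplicit false
set_option linter.style.haveILetI false

namespace Fermat.Agent.S36.Loc

open Fermat.Agent.KL Fermat.Agent.S36

theorem At_mem_of_posAt {B F : Type*} [CommRing B] [IsDomain B] [Field F] [Algebra B F]
    [IsFractionRing B F] {P : Ideal B} [hP : P.IsPrime] {c : B}
    (h : PosAt P (algebraMap B F c)) : c ∈ P := by
  obtain ⟨s, hs, p, hp, e⟩ := h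
  have h1 : s * c = p := by
    apply IsFractionRing.injective B F
    rw [map_mul, e]
  exact (hP.mem_or_mem (h1 ▸ hp : s * c ∈ P)).resolve_left hs

theorem locAt : Stmt_LocAt := by
  intro A₀ F F₁ B _ _ _ _ _ _ _ _ _ o₁ o₂ o₃ r D ϖ ν P₁ P₂ P₃ hν hP₁ hP₂ hP₃ h1ν h2ν h3ν
    hc₁ hc₂ hc₃ hr hϖν hϖB hQ hN hNπ hint hiso₁ hiso₂
  haveI := hP₁
  haveI := hP₂
  haveI := hP₃
  haveI hνp : ν.IsPrime := hν.isPrime
  have hinj : Function.Injective (algebraMap B F) := IsFractionRing.injective B F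
  -- step (1)
  have step1 : ∀ Q : Ideal B, Q.IsPrime → (∀ c ∈ baseSub B D.π, c ∈ ν → c ∈ Q) → ν ≤ Q := by
    intro Q hQp hQB
    have hiso : ∀ P : Ideal B, P ≤ ν → P ≤ Q → (∀ b : B, ∃ c ∈ baseSub B D.π, b - c ∈ P) →
        ν ≤ Q := by
      intro P hPν hPQ hi b hb
      obtain ⟨c, hc, hbc⟩ := hi b
      have hcν : c ∈ ν := by
        have := ν.sub_mem hb (hPν hbc)
        rwa [sub_sub_cancel] at this
      have := Q.add_mem (hQB c hc hcν) (hPQ hbc)
      rwa [add_sub_cancel] at this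
    rcases hQ Q hQp (hQB ϖ hϖB hϖν) with h | h | h
    · exact hiso P₁ h1ν h hiso₁
    · exact hiso P₂ h2ν h hiso₂
    · intro b hb
      by_cases hb3 : b ∈ P₃
      · exact h hb3
      · have hu : VUnit o₃ (algebraMap B F b) := ((hc₃ _).2).1 (unitAt_algebraMap hb3)
        obtain ⟨c, hc⟩ := hN b
        have hcB : c ∈ baseSub B D.π := ⟨_, hc.symm⟩
        have h4 : PosAt P₃ (algebraMap B F (c - b ^ r)) := by
          rw [map_sub, map_pow, hc]
          exact ((hc₃ _).1).2 (D.nb _ hu)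
        have h5 : c - b ^ r ∈ P₃ := At_mem_of_posAt h4
        have hbr : b ^ r ∈ ν := Ideal.pow_mem_of_mem ν hb r (by omega)
        have hcν : c ∈ ν := by
          have := ν.add_mem (h3ν h5) hbr
          rwa [sub_add_cancel] at this
        have h6 : b ^ r ∈ Q := by
          have := Q.sub_mem (hQB c hcB hcν) (h h5)
          rwa [sub_sub_cancel] at this
        exact hQp.mem_of_pow_mem r h6
  -- step (2)
  have step2 : ∀ s : B, s ∉ ν → ∃ c ∈ baseSub B D.π, c ∉ ν ∧ s ∣ c := by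
    intro s hs
    by_contra hcon
    push Not at hcon
    haveI : Algebra.IsIntegral (baseSub B D.π) B := ⟨hint⟩
    haveI : (ν.comap (algebraMap (baseSub B D.π) B)).IsPrime := Ideal.comap_isPrime _ _
    obtain ⟨Q, hIQ, hQp, hQc⟩ := Ideal.exists_ideal_over_prime_of_isIntegral
      (ν.comap (algebraMap (baseSub B D.π) B)) (Ideal.span {s}) (by
        intro c hc
        rw [Ideal.mem_comap, Ideal.mem_span_singleton] at hc
        rw [Ideal.mem_comap]
        by_contra hcν
        exact hcon _ c.2 hcν hc)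
    have hνQ : ν ≤ Q := step1 Q hQp (by
      intro c hc hcν
      have : (⟨c, hc⟩ : baseSub B D.π) ∈ Q.comap (algebraMap (baseSub B D.π) B) := by
        rw [hQc]
        exact hcν
      exact this)
    have hQν : Q = ν := (hν.eq_of_le hQp.ne_top hνQ).symm
    exact hs (hQν ▸ hIQ (Ideal.mem_span_singleton_self s))
  -- step (3)
  have step3 : ∀ s n : B, s ∉ ν → algebraMap B F n = D.π (D.N (algebraMap B F s)) → n ∉ ν := by
    intro s n hs hn hnν
    obtain ⟨c, ⟨x, hx⟩, hcν, s', rfl⟩ := step2 s hs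
    obtain ⟨n', hn'⟩ := hN s'
    have h7 : n * n' = (s * s') ^ r := by
      apply hinj
      have hx' : D.π x = algebraMap B F (s * s') := hx
      rw [map_mul, hn, hn', ← map_mul, ← map_mul, ← map_mul, ← hx', hNπ, map_pow, map_pow, hx']
    exact hcν (hνp.mem_of_pow_mem r (h7 ▸ ν.mul_mem_right n' hnν))
  refine ⟨?_, ?_⟩
  · rintro ε ⟨s, hs, p, hp, e⟩
    obtain ⟨ns, hns⟩ := hN s
    obtain ⟨np, hnp⟩ := hN p
    refine ⟨ns, step3 s ns hs hns, np, step3 p np hp hnp, ?_⟩
    rw [hns, hnp, ← e, map_mul, map_mul]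
  · rintro a ⟨s, hs, p, e⟩
    obtain ⟨cp, ⟨xp, hxp⟩, hcp⟩ := hiso₂ p
    obtain ⟨cs, ⟨xs, hxs⟩, hcs⟩ := hiso₂ s
    have hxp' : D.π xp = algebraMap B F cp := hxp
    have hxs' : D.π xs = algebraMap B F cs := hxs
    have hcsν : cs ∉ ν := by
      intro h
      apply hs
      have := ν.add_mem (h2ν hcs) h
      rwa [sub_add_cancel] at this
    have hcs0 : algebraMap B F cs ≠ 0 := algebraMap_ne_zero_of_not_mem hcsν
    have hs0 : algebraMap B F s ≠ 0 := algebraMap_ne_zero_of_not_mem hs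
    have hπ : D.π (xp / xs) = algebraMap B F cp / algebraMap B F cs := by
      rw [map_div₀, hxp', hxs']
    refine ⟨xp / xs, ⟨cs, hcsν, cp, ?_⟩, ((hc₂ _).1).1 ⟨s * cs, ?_, (p - cp) * cs - cp * (s - cs),
      ?_, ?_⟩⟩
    · rw [hπ]
      field_simp
    · exact mul_not_mem_of_isPrime (fun h => hs (h2ν h)) (fun h => hcsν (h2ν h))
    · exact P₂.sub_mem (P₂.mul_mem_right _ hcp) (P₂.mul_mem_left _ hcs)
    · rw [hπ]
      have ha : a = algebraMap B F p / algebraMap B F s := by
        rw [← e]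
        field_simp
      rw [ha]
      simp only [map_mul, map_sub]
      field_simp
      ring

end Fermat.Agent.S36.Loc
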