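import Fermat.Agent.S36.Loc.Interface

/-!
# S36 / Loc : `NorInt F P ↔ IsIntegrallyClosed (B ⧸ P)` and `NorInt → NorAt` (helper25)
-/

set_option autoImplicit false

namespace Fermat.Agent.S36.Loc

open Fermat.Agent.KL Fermat.Agent.S36 Polynomial

/-- clearing denominators: `φ s * w = φ a` implies
`φ s ^ n * p(w) = φ (∑ c_i a^i s^(n-i))` for `n ≥ deg p`. -/
theorem Nor_homog {B F' : Type*} [CommRing B] [CommRing F'] (φ : B →+* F') (a s : B) (w : F')
    (h : φ s * w = φ a) (p : B[X]) (n : ℕ) (hn : p.natDegree ≤ n) :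
    φ s ^ n * p.eval₂ φ w
      = φ (∑ i ∈ Finset.range (n + 1), p.coeff i * a ^ i * s ^ (n - i)) := by
  rw [eval₂_eq_sum_range' φ (Nat.lt_succ_of_le hn), Finset.mul_sum, map_sum]
  refine Finset.sum_congr rfl fun i hi => ?_
  have hi' : i ≤ n := Nat.lt_succ_iff.1 (Finset.mem_range.1 hi)
  rw [map_mul, map_mul, map_pow, map_pow, ← h]
  have e : φ s ^ n = φ s ^ i * φ s ^ (n - i) := by rw [← pow_add, Nat.add_sub_cancel' hi']
  rw [e]
  ring

section

variable {B F : Type*} [CommRing B] [IsDomain B] [Field F] [Algebra B F] [IsFractionRing B F]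
  {P : Ideal B} [P.IsPrime]

theorem Nor_posAt_algebraMap_iff {c : B} : PosAt P (algebraMap B F c) ↔ c ∈ P := by
  refine ⟨?_, posAt_algebraMap⟩
  rintro ⟨s, hs, p, hp, e⟩
  have h1 : s * c = p := IsFractionRing.injective B F (by rw [map_mul, e])
  exact ((inferInstance : P.IsPrime).mem_or_mem (h1 ▸ hp : s * c ∈ P)).resolve_left hs

end

/-- **LOC-NORIC**. -/
theorem norIC : Stmt_NorIC := by
  intro B F _ _ _ _ _ P _
  let R := B ⧸ P
  let K := FractionRing R
  let mk : B →+* R := Ideal.Quotient.mk P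
  let ψ : B →+* K := (algebraMap R K).comp mk
  have hψ0 : ∀ c : B, ψ c = 0 ↔ c ∈ P := fun c => by
    show algebraMap R K (mk c) = 0 ↔ _
    rw [map_eq_zero_iff _ (IsFractionRing.injective R K)]
    exact Ideal.Quotient.eq_zero_iff_mem
  rw [isIntegrallyClosed_iff K]
  constructor
  · intro hN x hx
    obtain ⟨a', s', hs', rfl⟩ := IsFractionRing.div_surjective (A := R) x
    obtain ⟨a, rfl⟩ := Ideal.Quotient.mk_surjective a'
    obtain ⟨s, rfl⟩ := Ideal.Quotient.mk_surjective s'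
    have hsP : s ∉ P := fun h =>
      (nonZeroDivisors.ne_zero hs') (Ideal.Quotient.eq_zero_iff_mem.2 h)
    have hψs : ψ s ≠ 0 := fun h => hsP ((hψ0 s).1 h)
    have hFs : algebraMap B F s ≠ 0 := algebraMap_ne_zero_of_not_mem hsP
    obtain ⟨q, hq, hq0⟩ := hx
    obtain ⟨p, hpq, -, hp⟩ := lifts_and_natDegree_eq_and_monic
      ((mem_lifts q).2 (map_surjective mk Ideal.Quotient.mk_surjective q)) hq
    -- the element of `F`
    have hz : algebraMap B F s * (algebraMap B F a / algebraMap B F s) = algebraMap B F a :=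
      mul_div_cancel₀ _ hFs
    have hx' : ψ s * (ψ a / ψ s) = ψ a := mul_div_cancel₀ _ hψs
    have e1 := Nor_homog (algebraMap B F) a s _ hz p p.natDegree le_rfl
    have e2 := Nor_homog ψ a s _ hx' p p.natDegree le_rfl
    have hq0' : p.eval₂ ψ (ψ a / ψ s) = 0 := by
      rw [← hpq, eval₂_map] at hq0
      exact hq0
    rw [hq0', mul_zero] at e2
    have hh := (hψ0 _).1 e2.symm
    have hpos : PosAt P (aeval (algebraMap B F a / algebraMap B F s) p) :=
      ⟨s ^ p.natDegree, fun h => hsP ((inferInstance : P.IsPrime).mem_of_pow_mem _ h), _, hh, by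
        rw [map_pow, aeval_def]; exact e1⟩
    obtain ⟨b, hb⟩ := hN _ ⟨s, hsP, a, hz⟩ ⟨p, hp, hpos⟩
    refine ⟨mk b, ?_⟩
    have h1 : PosAt P (algebraMap B F (a - s * b)) := by
      have := (intAt_algebraMap (F := F) (P := P) s).mul_posAt hb
      rwa [mul_sub, hz, ← map_mul, ← map_sub] at this
    have h2 : ψ (a - s * b) = 0 := (hψ0 _).2 (Nor_posAt_algebraMap_iff.1 h1)
    rw [map_sub, map_mul, sub_eq_zero] at h2
    show ψ b = ψ a / ψ s
    rw [h2, mul_div_cancel_left₀ _ hψs]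
  · intro hIC z hz hp
    obtain ⟨s, hsP, a, hza⟩ := hz
    obtain ⟨p, hp, hpos⟩ := hp
    have hψs : ψ s ≠ 0 := fun h => hsP ((hψ0 s).1 h)
    have hx' : ψ s * (ψ a / ψ s) = ψ a := mul_div_cancel₀ _ hψs
    have e1 := Nor_homog (algebraMap B F) a s _ hza p p.natDegree le_rfl
    have e2 := Nor_homog ψ a s _ hx' p p.natDegree le_rfl
    have hh : PosAt P (algebraMap B F
        (∑ i ∈ Finset.range (p.natDegree + 1), p.coeff i * a ^ i * s ^ (p.natDegree - i))) := by
      rw [← e1, ← aeval_def]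
      exact ((intAt_algebraMap (F := F) (P := P) s).pow _).mul_posAt hpos
    rw [(hψ0 _).2 (Nor_posAt_algebraMap_iff.1 hh)] at e2
    have h0 : p.eval₂ ψ (ψ a / ψ s) = 0 :=
      (mul_eq_zero.1 e2).resolve_left (pow_ne_zero _ hψs)
    have hint : IsIntegral R (ψ a / ψ s) := ⟨p.map mk, hp.map mk, by rw [eval₂_map]; exact h0⟩
    obtain ⟨y, hy⟩ := hIC hint
    obtain ⟨b, rfl⟩ := Ideal.Quotient.mk_surjective y
    have hy' : ψ b = ψ a / ψ s := hy
    refine ⟨b, s, hsP, a - s * b, ?_, ?_⟩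
    · rw [← hψ0, map_sub, map_mul, hy', hx', sub_self]
    · rw [mul_sub, hza, map_sub, map_mul]

/-- **LOC-NORAT**. -/
theorem norAt : Stmt_NorAt := by
  intro B F _ _ _ _ _ 𝔫 P m h𝔫 hP hle hm hN x e hx he hpos
  have := h𝔫
  have := hP
  obtain ⟨s, hs, a, -, hsa⟩ := he
  have hsP : s ∉ P := fun h => hs (hle h)
  have hFs : algebraMap B F s ≠ 0 := algebraMap_ne_zero_of_not_mem hsP
  obtain ⟨k, rfl⟩ : ∃ k, m = k + 1 := ⟨m - 1, by omega⟩
  have hz : IntAt P (algebraMap B F s * x) := (intAt_algebraMap s).mul hx.intAt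
  have hmon : (X ^ (k + 1) - C (s ^ k * a) : B[X]).Monic :=
    monic_X_pow_sub_C _ (Nat.succ_ne_zero k)
  have hev : aeval (algebraMap B F s * x) (X ^ (k + 1) - C (s ^ k * a) : B[X])
      = algebraMap B F s ^ (k + 1) * (x ^ (k + 1) - e) := by
    simp only [map_sub, map_pow, aeval_X, aeval_C, map_mul]
    rw [← hsa]
    ring
  obtain ⟨b, hb⟩ := hN _ hz ⟨_, hmon, by
    rw [hev]
    exact ((intAt_algebraMap s).pow _).mul_posAt hpos⟩
  refine ⟨algebraMap B F b / algebraMap B F s, ⟨s, hs, b, mul_div_cancel₀ _ hFs⟩, ?_⟩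
  have e1 : x - algebraMap B F b / algebraMap B F s
      = (algebraMap B F s * x - algebraMap B F b) * (algebraMap B F s)⁻¹ := by
    field_simp
  rw [e1]
  exact hb.mul_intAt (unitAt_algebraMap hsP).inv.intAt

end Fermat.Agent.S36.Loc
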