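import Fermat.Agent.S36.Loc.Interface2
import Fermat.Agent.S36.Loc.At
import Fermat.Agent.S36.Loc.Nor
import Fermat.Agent.KL.PolyRing
import Fermat.Agent.KL.PolyRing4

/-!
# S36 / Loc, task LOC-ATV (helper97): `Degen.LocAt` on a chart
-/

set_option autoImplicit false
set_option linter.style.haveILetI false

namespace Fermat.Agent.S36.Loc

open Fermat.Agent
open Fermat.Agent.KL (Chart PolyR cst crd FinOverR polyX)
open Polynomial

section ringhom

variable {R A : Type*} [CommRing R] [CommRing A]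

/-- integral with respect to `φ` ⟹ integral over any subring containing the range of `φ`. -/
theorem AtV_of_elem {S : Type*} [CommRing S] [Algebra S A] (φ : R →+* A) (x : A)
    (hS : ∀ a : R, ∃ c : S, algebraMap S A c = φ a) (hinj : Function.Injective (algebraMap S A))
    (h : φ.IsIntegralElem x) : IsIntegral S x := by
  obtain ⟨p, hp, hpx⟩ := h
  have hl : p.map φ ∈ lifts (algebraMap S A) := by
    rw [lifts_iff_coeff_lifts]
    intro i
    rw [coeff_map]
    obtain ⟨c, hc⟩ := hS (p.coeff i)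
    exact ⟨c, hc⟩
  obtain ⟨q, hq1, -, hq3⟩ := lifts_and_natDegree_eq_and_monic hl (hp.map φ)
  refine ⟨q, hq3, ?_⟩
  rw [← eval_map, hq1, eval_map]
  exact hpx

/-- integral over a ring whose image is contained in the range of `φ` ⟹ integral w.r.t. `φ`. -/
theorem AtV_to_elem {S : Type*} [CommRing S] [Algebra S A] (φ : R →+* A) (x : A)
    (hS : ∀ c : S, ∃ a : R, φ a = algebraMap S A c) (h : IsIntegral S x) :
    φ.IsIntegralElem x := by
  obtain ⟨p, hp, hpx⟩ := h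
  have hl : p.map (algebraMap S A) ∈ lifts φ := by
    rw [lifts_iff_coeff_lifts]
    intro i
    rw [coeff_map]
    obtain ⟨c, hc⟩ := hS (p.coeff i)
    exact ⟨c, hc⟩
  obtain ⟨q, hq1, -, hq3⟩ := lifts_and_natDegree_eq_and_monic hl (hp.map _)
  refine ⟨q, hq3, ?_⟩
  rw [← eval_map, hq1, eval_map]
  exact hpx

/-- the norm of an integral element is integral. -/
theorem AtV_norm {K L : Type*} [Field K] [Field L] (f : R →+* K) (π : K →+* L) (x : L)
    (hx : (π.comp f).IsIntegralElem x) :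
    f.IsIntegralElem (@Algebra.norm K L _ _ π.toAlgebra x) := by
  letI := π.toAlgebra
  letI := f.toAlgebra
  letI := (π.comp f).toAlgebra
  haveI : IsScalarTower R K L := IsScalarTower.of_algebraMap_eq (fun _ => rfl)
  exact Algebra.isIntegral_norm (R := R) (K := K) (L := L) hx

theorem AtV_elem_map {B : Type*} [CommRing B] (f : R →+* A) (π : A →+* B) (x : A)
    (hx : f.IsIntegralElem x) : (π.comp f).IsIntegralElem (π x) := by
  obtain ⟨p, hp, h⟩ := hx
  exact ⟨p, hp, by rw [← hom_eval₂, h, map_zero]⟩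

end ringhom

section polyR

variable {A₀ F : Type} [CommRing A₀] [Field F] [Algebra A₀ F]

/-- integrality over `A₀[x]` in terms of the ring hom `aeval x`. -/
theorem AtV_iff (x y : F) :
    IsIntegral (PolyR A₀ x) y ↔ ((aeval x : A₀[X] →ₐ[A₀] F) : A₀[X] →+* F).IsIntegralElem y := by
  constructor
  · intro h
    refine AtV_to_elem _ y (fun c => ?_) h
    have hc : (c : F) ∈ (aeval x : A₀[X] →ₐ[A₀] F).range := by
      rw [← Algebra.adjoin_singleton_eq_range_aeval]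
      exact c.2
    obtain ⟨a, ha⟩ := hc
    exact ⟨a, ha⟩
  · intro h
    refine AtV_of_elem _ y (fun a => ?_) Subtype.val_injective h
    exact ⟨⟨aeval x a, aeval_mem_adjoin_singleton A₀ x⟩, rfl⟩

/-- polynomials in an integral element are integral. -/
theorem AtV_aeval {x y : F} (h : IsIntegral (PolyR A₀ x) y) (p : A₀[X]) :
    IsIntegral (PolyR A₀ x) (aeval y p) := by
  have h1 : Algebra.adjoin A₀ {y} ≤ (Chart A₀ x).restrictScalars A₀ :=
    Algebra.adjoin_le (Set.singleton_subset_iff.2 h)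
  exact h1 (aeval_mem_adjoin_singleton A₀ y)

/-- transitivity. -/
theorem AtV_trans {x y b : F} (hx : IsIntegral (PolyR A₀ y) x) (hb : IsIntegral (PolyR A₀ x) b) :
    IsIntegral (PolyR A₀ y) b := by
  have h1 : IsIntegral (Chart A₀ y) b := by
    refine AtV_of_elem ((aeval x : A₀[X] →ₐ[A₀] F) : A₀[X] →+* F) b (fun a => ?_)
      Subtype.val_injective ((AtV_iff x b).1 hb)
    exact ⟨⟨aeval x a, AtV_aeval hx a⟩, rfl⟩
  exact isIntegral_trans (R := PolyR A₀ y) (A := Chart A₀ y) b h1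

end polyR

/-- uniqueness of the centre. -/
theorem AtV_cen_unique {B F : Type*} [CommRing B] [IsDomain B] [Field F] [Algebra B F]
    [IsFractionRing B F] {P P' : Ideal B} (hP : P.IsPrime) (hP' : P'.IsPrime) {o : F → ℤ}
    (h : IsCen P o) (h' : IsCen P' o) : P = P' := by
  ext b
  rw [← Nor_posAt_algebraMap_iff (F := F) (P := P), ← Nor_posAt_algebraMap_iff (F := F) (P := P'),
    (h _).1, (h' _).1]

/-- **LOC-ATV**. -/
theorem locAtV : Stmt_LocAtV := by
  intro A₀ F F₁ _ _ _ _ _ _ _ _ _ ϖ t s r o₁ o₂ o₃ D hϖ ht hfin hr hall hex₁ hex₂ hex₃ hN hrank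
    hπs htπ hiso ν hν hϖν hle
  obtain ⟨hpv, -, -⟩ := KL.stmt_polyRConcrete A₀ F t ht
  obtain ⟨-, -, hd, -, hfr, -, -⟩ :=
    KL.stmt_chartBasic A₀ (PolyR A₀ t) F (Chart A₀ t) (polyX A₀ t) hpv hfin
  haveI := hd
  haveI := hfr
  obtain ⟨P₁, hP₁, hc₁⟩ := hex₁
  obtain ⟨P₂, hP₂, hc₂⟩ := hex₂
  obtain ⟨P₃, hP₃, hc₃⟩ := hex₃
  have hp₁ : P₁.IsPrime := hP₁.1.1
  have hp₂ : P₂.IsPrime := hP₂.1.1
  have hp₃ : P₃.IsPrime := hP₃.1.1
  -- the ring hom `aeval (π s)`
  have hcomp : ((aeval (D.π s) : A₀[X] →ₐ[A₀] F) : A₀[X] →+* F)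
      = D.π.comp ((aeval s : A₀[X] →ₐ[A₀] F₁) : A₀[X] →+* F₁) := by
    apply Polynomial.ringHom_ext
    · intro a
      simp [D.π_const]
    · simp
  have hintB : ∀ b : F, IsIntegral (PolyR A₀ t) b →
      ((aeval (D.π s) : A₀[X] →ₐ[A₀] F) : A₀[X] →+* F).IsIntegralElem b := fun b hb =>
    (AtV_iff _ _).1 (AtV_trans htπ hb)
  refine locAt A₀ F F₁ (Chart A₀ t) o₁ o₂ o₃ r D (cst A₀ t ϖ) ν P₁ P₂ P₃ hν hp₁ hp₂ hp₃
    (hle P₁ hP₁) (hle P₂ hP₂) (hle P₃ hP₃) hc₁ hc₂ hc₃ hr hϖν ?_ ?_ ?_ ?_ ?_ ?_ ?_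
  · -- `ϖ ∈ baseSub`
    exact ⟨algebraMap A₀ F₁ ϖ, D.π_const ϖ⟩
  · -- primes containing `ϖ`
    intro Q hQ hϖQ
    haveI := hQ
    obtain ⟨p, hp, hpQ⟩ := Ideal.exists_minimalPrimes_le
      (I := Ideal.span {cst A₀ t ϖ}) (J := Q) ((Ideal.span_singleton_le_iff_mem _).2 hϖQ)
    have hpp : p.IsPrime := hp.1.1
    rcases hall p hp with h | h | h
    · exact Or.inl (AtV_cen_unique hpp hp₁ h hc₁ ▸ hpQ)
    · exact Or.inr (Or.inl (AtV_cen_unique hpp hp₂ h hc₂ ▸ hpQ))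
    · exact Or.inr (Or.inr (AtV_cen_unique hpp hp₃ h hc₃ ▸ hpQ))
  · -- the norm
    intro b
    have h1 := hintB (algebraMap (Chart A₀ t) F b) b.2
    rw [hcomp] at h1
    have h2 := AtV_elem_map _ D.π _ (AtV_norm _ D.π _ h1)
    rw [← hcomp, ← hN, ← AtV_iff] at h2
    exact ⟨⟨_, AtV_trans hπs h2⟩, rfl⟩
  · -- `N (π x) = x ^ r`
    intro x
    rw [hN]
    letI := D.π.toAlgebra
    have h1 : Algebra.norm F₁ (algebraMap F₁ F x) = x ^ Module.finrank F₁ F :=
      Algebra.norm_algebraMap (S := F) x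
    rw [hrank] at h1
    exact h1
  · -- integrality over `baseSub`
    intro b
    have h1 := hintB (algebraMap (Chart A₀ t) F b) b.2
    set φ : A₀[X] →+* Chart A₀ t :=
      RingHom.codRestrict ((aeval (D.π s) : A₀[X] →ₐ[A₀] F) : A₀[X] →+* F) (Chart A₀ t).toSubring
        (fun p => AtV_aeval hπs p) with hφ
    have h2 : φ.IsIntegralElem b := by
      obtain ⟨p, hp, hpb⟩ := h1
      refine ⟨p, hp, ?_⟩
      apply IsFractionRing.injective (Chart A₀ t) F
      rw [map_zero, hom_eval₂]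
      exact hpb
    refine AtV_of_elem φ b (fun a => ?_) Subtype.val_injective h2
    refine ⟨⟨φ a, ?_⟩, rfl⟩
    refine ⟨aeval s a, ?_⟩
    have := congrArg (fun f : A₀[X] →+* F => f a) hcomp
    exact this.symm
  · intro b
    obtain ⟨x, hx, hpos⟩ := hiso P₁ hP₁ (Or.inl hc₁) b
    refine ⟨⟨D.π x, hx⟩, ⟨x, rfl⟩, ?_⟩
    rw [← Nor_posAt_algebraMap_iff (F := F) (P := P₁), map_sub]
    exact hpos
  · intro b
    obtain ⟨x, hx, hpos⟩ := hiso P₂ hP₂ (Or.inr hc₂) b
    refine ⟨⟨D.π x, hx⟩, ⟨x, rfl⟩, ?_⟩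
    rw [← Nor_posAt_algebraMap_iff (F := F) (P := P₂), map_sub]
    exact hpos

end Fermat.Agent.S36.Loc
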