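/-
TEAM S36, block [LOC], task LOC-CONG (helper26): `ι_A ≡ ι_C` on the middle component; Frobenius on
the component `C` (`Stmt_Cong`).
-/
import Fermat.Agent.S36.Loc.Interface2
import Fermat.Agent.S36.Val.All
import Fermat.Agent.S36.Val.ResAll
import Fermat.Agent.S36.Val.V01
import Fermat.Agent.S36.Val.DegV01
import Fermat.Agent.S36.Val.Class2b
import Fermat.Agent.ES.Mid.HF2

set_option autoImplicit false

noncomputable section

namespace Fermat.Agent.S36.Loc

open Fermat.Agent
open Fermat.Agent.S36.Val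
open Fermat.Agent.S36.Base
open Fermat.Agent.S24 (Qbar FF)
open Fermat.Agent.INJ.Inst (kA)
open Fermat.Agent.INJ.Inst.Gauss (rho inc)
open Fermat.Agent.ES.Mid (tw)
open ModularCurve (qExpand coeffMap)

/-- Frobenius on series with coefficients in the prime ring. -/
theorem Cong_frob (k : Type) [Field k] (r : ℕ) [NeZero r] (hr : r.Prime) [CharP k r]
    (s : LaurentSeries ℤ) :
    coeffMap (Int.castRingHom k) s ^ r = qExpand k r (coeffMap (Int.castRingHom k) s) := by
  have : Fact r.Prime := ⟨hr⟩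
  rw [ES.Mid.HF2.pow_eq r, ModularCurve.coeffMap_coeffMap,
    RingHom.ext_int ((frobenius k r).comp (Int.castRingHom k)) (Int.castRingHom k)]

theorem Cong_frob2 (k : Type) [Field k] (r : ℕ) [NeZero r] (hr : r.Prime) [CharP k r]
    (s : LaurentSeries ℤ) :
    coeffMap (Int.castRingHom k) s ^ (r ^ 2)
      = qExpand k r (qExpand k r (coeffMap (Int.castRingHom k) s)) := by
  rw [pow_two, pow_mul, Cong_frob k r hr s, ← map_pow, Cong_frob k r hr s]

/-- the `q`-expansion of an element with integral coefficients. -/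
theorem Cong_phiA (A : ValuationSubring Qbar) (M : ℕ) (x : FE A M) (s : LaurentSeries ℤ)
    (hx : (x : Base.LE A) = coeffMap (Int.castRingHom (IE A)) s) :
    phiA A M x = inc A (coeffMap (Int.castRingHom A) s) := by
  have h1 : phiA A M x = cmE A (x : Base.LE A) := rfl
  rw [h1, hx, cmE, ModularCurve.coeffMap_coeffMap, ModularCurve.coeffMap_coeffMap,
    RingHom.ext_int ((algebraMap (IE A) Qbar).comp (Int.castRingHom (IE A)))
      (A.subtype.comp (Int.castRingHom A))]

theorem Cong_lt {A : ValuationSubring Qbar} {F : Type} [Field F] (φ : F →+* LaurentSeries Qbar)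
    (h : ∀ x, Sat A (φ x)) (a : F) (y : LaurentSeries Qbar) (hy : φ a = y) (h1 : GInt A y)
    (h2 : gred A y = 0) : (gv φ h).valuation a < 1 :=
  (gv_lt_one_iff φ h a).2 ⟨hy ▸ h1, hy ▸ h2⟩

theorem cong (hR : Val.Stmt_ResAll) (_hG : Val.Stmt_GVApi) (hE : Val.Stmt_GVExpand)
    (hT : Val.Stmt_GVTw) : Stmt_Cong := by
  intro A r M _ _ _ _ C v01 hv
  obtain ⟨-, -, -, -, -, -, hMv, hCv, -, hMi, hCi⟩ := hR A r M C v01 hv
  constructor
  · intro x hx
    have hS : GInt A (phiA A M x) := hx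
    obtain ⟨hT1, hT2⟩ := hT A r C.hr C.hA C.D.ζ C.D.prim.pow_eq_one _ hS
    exact Cong_lt (phiM A C.D) (fun _ => C.hS _) _ (phiA A M x - tw C.D.ζ (phiA A M x))
      (by rw [map_sub, hMi, hMv]) (hS.sub hT1) (by rw [gred_sub hS hT1, hT2, sub_self])
  · rintro x ⟨s, hs⟩
    have hS0 := Cong_phiA A M x s hs
    have hS : GInt A (phiA A M x) := by rw [hS0]; exact gint_inc _
    have hred : gred A (phiA A M x) = coeffMap (Int.castRingHom (kA A)) s := by
      rw [hS0, gred_inc, ModularCurve.coeffMap_coeffMap,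
        RingHom.ext_int ((resA A).comp (Int.castRingHom A)) (Int.castRingHom (kA A))]
    obtain ⟨hE1, hE2⟩ := hE A r _ hS
    obtain ⟨hE3, hE4⟩ := hE A r _ hE1
    have : CharP (kA A) r := JTw_charP A C.hr C.hA
    exact Cong_lt (phiC A C.W2) (fun _ => sat_incl A (r ^ 2 * M) _) _
      (qExpand Qbar r (qExpand Qbar r (phiA A M x)) - phiA A M x ^ (r ^ 2))
      (by rw [map_sub, map_pow, hCi, hCv]) (hE3.sub (hS.pow _))
      (by rw [gred_sub hE3 (hS.pow _), gred_pow hS, hE4, hE2, hred, Cong_frob2 (kA A) r C.hr s,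
        sub_self])

/-- `Val.Stmt_ResAll`, unconditionally. -/
theorem Cong_all_ResAll : Val.Stmt_ResAll :=
  stmt_ResAll
    (stmt_V01 stmt_ExtRingE stmt_PhiGen stmt_OverOf stmt_GVApi stmt_GVExpand stmt_IndepPow
      stmt_JFrob)
    stmt_DegV01 (stmt_Class2b CAR.NR.stmt_FundEq CAR.NR.stmt_ApproxPi stmt_DegLE) all_Main1
    all_OverAll all_UnifR all_Indep all_DegE stmt_OrdOf all_PhiLevel

/-- **LOC-CONG**, unconditionally. -/
theorem cong' : Stmt_Cong := cong Cong_all_ResAll stmt_GVApi stmt_GVExpand stmt_GVTw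

end Fermat.Agent.S36.Loc

end
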