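import Fermat.Agent.S36.Loc.Interface2

/-!
# S36 / Loc : MUT-STEP, the cusp type is invariant under `q ↦ q^r`, `gcd(a, r) = 1`
-/

set_option autoImplicit false

namespace Fermat.Agent.S36.Loc

theorem CuspStep_pow_inj {Γ : Type*} [LinearOrderedCommGroupWithZero Γ] {x : Γ} (hx : 1 < x)
    {m n : ℕ} (h : x ^ m = x ^ n) : m = n :=
  pow_right_injective₀ (zero_lt_one.trans hx) hx.ne' h

theorem CuspStep_key {Γ : Type*} [LinearOrderedCommGroupWithZero Γ] {x y x₁ y₁ : Γ} (hx : 1 < x)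
    {mα nα mα' nα' mρ nρ mρ' nρ' : ℕ} (h1 : y ^ mα = x ^ nα) (h2 : y₁ ^ mα' = x₁ ^ nα')
    (h3 : x₁ ^ mρ = x ^ nρ) (h4 : y₁ ^ mρ' = y ^ nρ') :
    nρ * nα' * mρ' * mα = nα * nρ' * mα' * mρ := by
  apply CuspStep_pow_inj hx
  calc x ^ (nρ * nα' * mρ' * mα) = ((x ^ nρ) ^ nα') ^ (mρ' * mα) := by
        rw [← pow_mul, ← pow_mul]; congr 1; ring
    _ = ((x₁ ^ nα') ^ mρ) ^ (mρ' * mα) := by
        rw [← h3, pow_right_comm x₁]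
    _ = ((y₁ ^ mρ') ^ mα) ^ (mα' * mρ) := by
        rw [← h2, ← pow_mul, ← pow_mul, ← pow_mul, ← pow_mul]; congr 1; ring
    _ = ((y ^ mα) ^ nρ') ^ (mα' * mρ) := by
        rw [h4, pow_right_comm y]
    _ = x ^ (nα * nρ' * mα' * mρ) := by
        rw [h1, ← pow_mul, ← pow_mul]; congr 1; ring

theorem CuspStep_arith {a r : ℕ} (ha : 2 ≤ a) (har : Nat.Coprime a r) {i j i' j' : ℕ}
    (h : a ^ i * r ^ j = a ^ i' * r ^ j') : i = i' := by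
  have key : ∀ {i j i' j' : ℕ}, a ^ i * r ^ j = a ^ i' * r ^ j' → i ≤ i' := by
    intro i j i' j' h
    have h1 : a ^ i ∣ a ^ i' * r ^ j' := ⟨r ^ j, h.symm⟩
    have h2 : a ^ i ∣ a ^ i' := (Nat.Coprime.pow i j' har).dvd_of_dvd_mul_right h1
    exact (Nat.pow_dvd_pow_iff_le_right (by omega)).1 h2
  exact le_antisymm (key h) (key h.symm)

theorem CuspStep_code {Γ : Type*} [LinearOrderedCommGroupWithZero Γ] {x y t : Γ} {a : ℕ}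
    (h : (1 < t ∧ y = x ^ a) ∨ (t < 1 ∧ x = y ^ a) ∨ (t = 1 ∧ x = y)) :
    ∃ e1 e2 : ℕ, y ^ (a ^ e1) = x ^ (a ^ e2) ∧
      ((e1 = 0 ∧ e2 = 1 ∧ 1 < t) ∨ (e1 = 1 ∧ e2 = 0 ∧ t < 1) ∨ (e1 = 0 ∧ e2 = 0 ∧ t = 1)) := by
  rcases h with ⟨h1, h2⟩ | ⟨h1, h2⟩ | ⟨h1, h2⟩
  · exact ⟨0, 1, by simp [h2], Or.inl ⟨rfl, rfl, h1⟩⟩
  · exact ⟨1, 0, by simp [← h2], Or.inr (Or.inl ⟨rfl, rfl, h1⟩)⟩
  · exact ⟨0, 0, by simp [h2], Or.inr (Or.inr ⟨rfl, rfl, h1⟩)⟩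

theorem CuspStep_codeR {Γ : Type*} [LinearOrderedCommGroupWithZero Γ] {x x₁ : Γ} {r : ℕ}
    (h : x₁ = x ^ r ∨ x = x₁ ^ r) : ∃ f1 f2 : ℕ, x₁ ^ (r ^ f1) = x ^ (r ^ f2) := by
  rcases h with h | h
  · exact ⟨0, 1, by simp [h]⟩
  · exact ⟨1, 0, by simp [← h]⟩

/-- the abstract statement in the value group. -/
theorem CuspStep_abs {Γ : Type*} [LinearOrderedCommGroupWithZero Γ] {x y x₁ y₁ t t₁ : Γ}
    {a r : ℕ} (ha : 2 ≤ a) (har : Nat.Coprime a r) (hx : 1 < x)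
    (h : (1 < t ∧ y = x ^ a) ∨ (t < 1 ∧ x = y ^ a) ∨ (t = 1 ∧ x = y))
    (h' : (1 < t₁ ∧ y₁ = x₁ ^ a) ∨ (t₁ < 1 ∧ x₁ = y₁ ^ a) ∨ (t₁ = 1 ∧ x₁ = y₁))
    (hρ : x₁ = x ^ r ∨ x = x₁ ^ r) (hρ' : y₁ = y ^ r ∨ y = y₁ ^ r) :
    (1 < t ∧ 1 < t₁) ∨ (t < 1 ∧ t₁ < 1) ∨ (t = 1 ∧ t₁ = 1) := by
  obtain ⟨e1, e2, he, hc⟩ := CuspStep_code h
  obtain ⟨e1', e2', he', hc'⟩ := CuspStep_code h'
  obtain ⟨f1, f2, hf⟩ := CuspStep_codeR hρ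
  obtain ⟨f1', f2', hf'⟩ := CuspStep_codeR hρ'
  have h1 := CuspStep_key hx he he' hf hf'
  have h2 : a ^ (e2' + e1) * r ^ (f2 + f1') = a ^ (e2 + e1') * r ^ (f2' + f1) := by
    rw [pow_add, pow_add, pow_add, pow_add]
    calc a ^ e2' * a ^ e1 * (r ^ f2 * r ^ f1') = r ^ f2 * a ^ e2' * r ^ f1' * a ^ e1 := by ring
      _ = a ^ e2 * r ^ f2' * a ^ e1' * r ^ f1 := h1
      _ = _ := by ring
  have h3 := CuspStep_arith ha har h2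
  rcases hc with ⟨rfl, rfl, c⟩ | ⟨rfl, rfl, c⟩ | ⟨rfl, rfl, c⟩ <;>
    rcases hc' with ⟨rfl, rfl, c'⟩ | ⟨rfl, rfl, c'⟩ | ⟨rfl, rfl, c'⟩ <;>
    first
    | (exfalso; omega)
    | exact Or.inl ⟨c, c'⟩
    | exact Or.inr (Or.inl ⟨c, c'⟩)
    | exact Or.inr (Or.inr ⟨c, c'⟩)

theorem cuspStep : Stmt_CuspStep := by
  intro F _ O a r τ J J' τ₁ J₁ J₁' ha _ har hτ hτ₁ hT hT₁ hJ hρ hρ'
  have hinv : ∀ z : F, z ≠ 0 → (z⁻¹ ∈ O ↔ 1 ≤ O.valuation z) := by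
    intro z hz
    rw [← ValuationSubring.valuation_le_one_iff, map_inv₀,
      inv_le_one₀ (zero_lt_iff.2 ((map_ne_zero O.valuation).2 hz))]
  rw [hinv τ hτ, hinv τ₁ hτ₁, ← ValuationSubring.valuation_le_one_iff,
    ← ValuationSubring.valuation_le_one_iff]
  have main : (1 < O.valuation τ ∧ 1 < O.valuation τ₁) ∨
      (O.valuation τ < 1 ∧ O.valuation τ₁ < 1) ∨ (O.valuation τ = 1 ∧ O.valuation τ₁ = 1) := by
    by_cases hJO : J ∈ O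
    · have hJ₁O : J₁ ∈ O := hJ.1 hJO
      rcases hT with ⟨-, h1⟩ | ⟨h, -⟩
      · rcases hT₁ with ⟨-, h2⟩ | ⟨h, -⟩
        · exact Or.inr (Or.inr ⟨h1, h2⟩)
        · exact absurd hJ₁O h
      · exact absurd hJO h
    · have hJ₁O : J₁ ∉ O := fun h => hJO (hJ.2 h)
      rcases hT with ⟨h, -⟩ | ⟨-, hJ', h1⟩
      · exact absurd h hJO
      · rcases hT₁ with ⟨h, -⟩ | ⟨-, -, h2⟩
        · exact absurd h hJ₁O
        · have hx : 1 < O.valuation J := by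
            rw [← not_le, ValuationSubring.valuation_le_one_iff]
            exact hJO
          exact CuspStep_abs ha har hx h1 h2 (hρ hJO) (hρ' hJ')
  rcases main with ⟨h1, h2⟩ | ⟨h1, h2⟩ | ⟨h1, h2⟩
  · exact ⟨⟨fun h => absurd h1 (not_lt.2 h), fun h => absurd h2 (not_lt.2 h)⟩,
      ⟨fun _ => h2.le, fun _ => h1.le⟩⟩
  · exact ⟨⟨fun _ => h2.le, fun _ => h1.le⟩,
      ⟨fun h => absurd h1 (not_lt.2 h), fun h => absurd h2 (not_lt.2 h)⟩⟩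
  · rw [h1, h2]
    exact ⟨Iff.rfl, Iff.rfl⟩

end Fermat.Agent.S36.Loc
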