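import Fermat.Agent.S36.Loc.Interface2
import Fermat.Agent.S36.Reg.Dich
import Fermat.Agent.S36.Reg.UU

/-!
# S36 / Loc, task MUT-DICH (helper40; architect helper78)

`dichV : Stmt_DichV` : the `Φ_r` dichotomy for a valuation ring `O`, from the landed `Reg.dich Reg.uu`
applied to `B = O`, `𝔫 =` the maximal ideal of `O`.
-/

set_option autoImplicit false

noncomputable section

namespace Fermat.Agent.S36.Loc

open Fermat.Agent

section

variable {F : Type} [Field F] (O : ValuationSubring F)

theorem DichV_val_unit {s : O} (hs : s ∉ IsLocalRing.maximalIdeal O) :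
    O.valuation (algebraMap O F s) = 1 :=
  (O.valuation_eq_one_iff s).mp (IsLocalRing.notMem_maximalIdeal.mp hs)

theorem DichV_posAt_of_lt {z : F} (hz : O.valuation z < 1) :
    PosAt (IsLocalRing.maximalIdeal O) z := by
  have hzO : z ∈ O := (O.valuation_le_one_iff z).mp hz.le
  refine ⟨1, fun h => (Ideal.ne_top_iff_one _).mp (IsLocalRing.maximalIdeal.isMaximal O).ne_top h,
    ⟨z, hzO⟩, (O.valuation_lt_one_iff ⟨z, hzO⟩).mpr hz, ?_⟩
  rw [map_one, one_mul]
  rfl

theorem DichV_lt_of_posAt {z : F} (hz : PosAt (IsLocalRing.maximalIdeal O) z) :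
    O.valuation z < 1 := by
  obtain ⟨s, hs, p, hp, e⟩ := hz
  have h1 := congrArg O.valuation e
  rw [map_mul, DichV_val_unit O hs, one_mul] at h1
  rw [h1]
  exact (O.valuation_lt_one_iff p).mp hp

theorem DichV_eq_one_of_unitAt {z : F} (hz : UnitAt (IsLocalRing.maximalIdeal O) z) :
    O.valuation z = 1 := by
  obtain ⟨s, hs, p, hp, e⟩ := hz
  have h1 := congrArg O.valuation e
  rw [map_mul, DichV_val_unit O hs, one_mul, DichV_val_unit O hp] at h1
  exact h1

end

/-- **MUT-DICH**. -/
theorem dichV : Stmt_DichV := by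
  intro F _ O r c Z W hr hc hW0 hW hsum
  have hmax : (IsLocalRing.maximalIdeal O).IsPrime :=
    (IsLocalRing.maximalIdeal.isMaximal O).isPrime
  have hc' : Reg.PhiShape r (fun a b => ((c a b : ℤ) : O)) :=
    ⟨fun b hb => by simp [hc.left b hb], by simp [hc.left_top],
      fun a ha => by simp [hc.right a ha], by simp [hc.right_top], by simp [hc.one_one]⟩
  have hphi : Reg.phiStar r (fun a b => ((c a b : ℤ) : O)) Z W = 0 := by
    unfold Reg.phiStar
    simpa only [map_intCast] using hsum
  obtain ⟨hZ0, hZ, h⟩ := Reg.dich Reg.uu O F (IsLocalRing.maximalIdeal O) r _ Z W hmax hr hc' hW0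
    (DichV_posAt_of_lt O hW) hphi
  refine ⟨hZ0, DichV_lt_of_posAt O hZ, ?_⟩
  rcases h with ⟨u, hu, e⟩ | ⟨u, hu, e⟩
  · left
    rw [e, map_mul, map_pow, DichV_eq_one_of_unitAt O hu, mul_one]
  · right
    rw [e, map_mul, map_pow, DichV_eq_one_of_unitAt O hu, mul_one]

end Fermat.Agent.S36.Loc

end
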