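import Fermat.Agent.S36.Loc.Interface2
import Fermat.Agent.S36.Inst.Concrete
import Fermat.Agent.S36.Gre.Interface
import Fermat.Agent.S36.Val.All
import Fermat.Agent.S36.Val.Class2b
import Fermat.Agent.S36.Val.V01
import Fermat.Agent.S36.Val.DegV01

/-!
# S36 / Loc : final assembly of [LOC] : `Inst.Stmt_LocInst` (helper78)
-/

set_option autoImplicit false

noncomputable section

namespace Fermat.Agent.S36.Loc

open Fermat.Agent
open Fermat.Agent.KL (Chart PolyR cst crd FinOverR)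
open Fermat.Agent.S36.Val
open Fermat.Agent.S36.Base
open Fermat.Agent.S24 (Qbar FF)
open Fermat.Agent.CAR (NR.IsUnif)
open Polynomial

/-- `LocAtOut` gives `Inst.LocOut` (abstract). -/
theorem Final_locOut {A₀ F F₁ : Type} [CommRing A₀] [Field F] [Field F₁] [Algebra A₀ F]
    [Algebra A₀ F₁] {o₁ o₂ o₃ : F → ℤ} {r : ℕ} (ϖ : A₀) (t : F) (D : Degen A₀ F F₁ o₁ o₂ o₃ r)
    (h : LocAtOut ϖ t D) (hex : ∃ P, P ∈ (Ideal.span {cst A₀ t ϖ}).minimalPrimes) :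
    Inst.LocOut A₀ F F₁ ϖ t D := by
  intro 𝔫 h𝔫 hall
  obtain ⟨P, hP⟩ := hex
  refine h 𝔫 h𝔫 (hall P hP (hP.1.2 (Ideal.subset_span rfl))) hall

/-- from residue degree one on units to all of `W`. -/
theorem Final_res {K L : Type} [Field K] [Field L] (π : K →+* L) (V : ValuationSubring K)
    (W : ValuationSubring L) (hov : Over π V W)
    (h : ∀ y : L, W.valuation y = 1 → ∃ y' : K, W.valuation (y - π y') < 1) :
    ∀ x ∈ W, ∃ c ∈ V, W.valuation (x - π c) < 1 := by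
  intro x hx
  rcases lt_or_eq_of_le ((W.valuation_le_one_iff x).2 hx) with h1 | h1
  · exact ⟨0, V.zero_mem, by rwa [map_zero, sub_zero]⟩
  · obtain ⟨y', hy'⟩ := h x h1
    refine ⟨y', (hov y').1 ?_, hy'⟩
    have e : π y' = x - (x - π y') := by ring
    rw [e]
    exact W.sub_mem hx ((W.valuation_le_one_iff _).1 hy'.le)

theorem locInst (hAbs : Stmt_LocAbs) (hMut : Stmt_Mut) (hCong : Stmt_Cong)
    (hLift : Gre.Stmt_LiftGre) (hGood : Gre.Stmt_GoodCoord) : Inst.Stmt_LocInst := by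
  intro A r M _ _ _ _ C t₀ hd hHM D₁ D₂ hD₁ hD₁' hD₂ hD₂'
  have ha : Dict.auxLevel r = 4 ∨ Dict.auxLevel r = 9 := by
    unfold Dict.auxLevel
    split_ifs
    · exact Or.inr rfl
    · exact Or.inl rfl
  generalize Dict.auxLevel r = a at hd hHM ha
  obtain ⟨hdvr, hirr⟩ := all_DVR r A C.hr C.hA
  have := hdvr
  obtain ⟨-, v01, hv01⟩ := all_ExCtx A r M C.hr C.hrM C.hA
  obtain ⟨htr, hG, -⟩ := hGood a r M C.hr ha hd C.hrM A C.hA t₀ hHM
  obtain ⟨hL1, hL2⟩ := hLift a r M C.hr ha hd C.hrM A C.hA t₀ hHM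
  have hcop : Nat.Coprime a r := by
    rw [Nat.coprime_comm, Nat.Prime.coprime_iff_not_dvd C.hr]
    intro h
    exact C.hrM (h.trans hd)
  obtain ⟨hvert, hcen, hcen'⟩ := all_Main2 A r M C t₀ hG htr
  obtain ⟨-, -, -, -, -, -, -, -, hf1, hf2⟩ := all_Main1 A r M C
  obtain ⟨o1, o2, -, -, o5, o6, o7, o8⟩ := all_OverAll A r M C
  obtain ⟨hc12, hcv12, hc01⟩ := stmt_LevelConst A r M C
  obtain ⟨-, -, hV3, hV4, hV5, hV6⟩ :=
    stmt_V01 stmt_ExtRingE stmt_PhiGen stmt_OverOf stmt_GVApi stmt_GVExpand stmt_IndepPow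
      stmt_JFrob A r M C v01 hv01
  obtain ⟨-, -, -, -, -, -, hI7, hI8⟩ := all_Indep A r M C
  obtain ⟨-, -, hD01⟩ := all_DegE A r M C
  have hU := (all_UnifR A r C.hr C.hA).1 M
  have hC2b := stmt_Class2b CAR.NR.stmt_FundEq CAR.NR.stmt_ApproxPi stmt_DegLE
  have hresA := (hC2b _ _ C.i01 r (OA A M) (OA A (r * M)) (OC A C.W1) _ C.hr.pos hD01 hU o7 o8 hI8
    hI7).2.2.1
  have hresC := (hC2b _ _ v01 r (OA A M) (OC A C.W1) (OA A (r * M)) _ C.hr.pos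
    (stmt_DegV01 A r M C v01 hv01) hU hV4 hV3 hI8.symm hV5).2.2.1
  obtain ⟨htrA₀, hfin₀⟩ := all_Fin A M t₀ htr
  have htr' : Transcendental (IE A) (C.i12 (C.i01 t₀)) :=
    M2_transcendental A t₀ _ (by rw [C.hi12, C.hi01]) htr
  obtain ⟨htrA, hfin⟩ := all_Fin A (r ^ 2 * M) (C.i12 (C.i01 t₀)) htr'
  obtain ⟨hcg1, hcg2⟩ := hCong A r M C v01 hv01
  have H : LocHyp ((r : ℕ) : AE A) r t₀ C.i01 v01 C.i12 C.v12 (OA A M) (OA A (r * M)) (OC A C.W1)
      C.O C.ord :=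
    { irr := hirr
      hr := C.hr.one_lt.le
      tr₀ := htrA₀
      fin₀ := hfin₀
      tr := htrA
      fin := hfin
      c_i01 := hc01
      c_v01 := hV6
      c_i12 := hc12
      c_v12 := hcv12
      vert₀ := hG.1
      nor₀ := hL1
      nor₀' := hL2
      o_i01 := o7
      o_v01 := hV4
      o_iA := o1
      o_iM := o2
      o_vC := o6
      o_vM := o5
      resA := Final_res _ _ _ o7 hresA
      resC := Final_res _ _ _ hV4 hresC
      cen := hcen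
      cen' := hcen'
      vert := fun X => (hvert _).2 ⟨X, rfl⟩
      hmut := hMut A r M a C v01 t₀ hv01 ha hd hcop hHM
      congM := hcg1 t₀ hG.1.2.1
      congC := hcg2 t₀ ⟨HM.tq a ℤ, by rw [hHM, HM.coeffMap_tq]⟩ }
  have hmain := hAbs (AE A) (FE A M) (FE A (r * M)) (FE A (r ^ 2 * M)) ((r : ℕ) : AE A) r t₀ C.i01
    v01 C.i12 C.v12 (OA A M) (OA A (r * M)) (OC A C.W1) C.O C.ord H
  have hex : ∃ P, P ∈ (Ideal.span {cst (AE A) (C.i12 (C.i01 t₀)) ((r : ℕ) : AE A)}).minimalPrimes := by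
    obtain ⟨P, hP, -⟩ := hcen.2 0
    exact ⟨P, hP⟩
  obtain ⟨m1, m2, m3, m4⟩ := hmain D₁ D₂ hD₁ hD₁' hf1 hD₂ hD₂' hf2
  exact ⟨m1, m2, Final_locOut _ _ D₁ m3 hex, Final_locOut _ _ D₂ m4 hex⟩

end Fermat.Agent.S36.Loc

end
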