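import Fermat.Agent.S36.Loc.Interface

/-!
# S36 / Loc / LOC-ISO : `B = ι(B') + P` and `B / P` integrally closed from the lower level
-/

set_option autoImplicit false

namespace Fermat.Agent.S36.Loc

open Fermat.Agent.KL Fermat.Agent.S36 Polynomial

section Aux

variable {B F : Type*} [CommRing B] [Field F] [Algebra B F] {P : Ideal B} [P.IsPrime]

lemma Iso_posAt_sum {κ : Type*} (s : Finset κ) (f : κ → F) (h : ∀ i ∈ s, PosAt P (f i)) :
    PosAt P (∑ i ∈ s, f i) := by
  classical
  induction s using Finset.induction_on with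
  | empty => rw [Finset.sum_empty]; exact posAt_zero
  | insert a s ha ih =>
    rw [Finset.sum_insert ha]
    exact (h a (Finset.mem_insert_self a s)).add
      (ih fun i hi => h i (Finset.mem_insert_of_mem hi))

lemma Iso_mul_sub_mul {a a' c c' : F} (ha : IntAt P a) (hc' : IntAt P c')
    (h : PosAt P (a - a')) (h' : PosAt P (c - c')) : PosAt P (a * c - a' * c') := by
  have e : a * c - a' * c' = a * (c - c') + (a - a') * c' := by ring
  rw [e]
  exact (ha.mul_posAt h').add (h.mul_intAt hc')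

lemma Iso_eval₂_sub {R : Type*} [CommRing R] (φ : R →+* F) (hφ : ∀ r, IntAt P (φ r)) (q : R[X])
    {a a' : F} (ha : IntAt P a) (ha' : IntAt P a') (h : PosAt P (a - a')) :
    PosAt P (q.eval₂ φ a - q.eval₂ φ a') := by
  rw [eval₂_eq_sum_range, eval₂_eq_sum_range, ← Finset.sum_sub_distrib]
  refine Iso_posAt_sum _ _ fun i _ => ?_
  rw [← mul_sub]
  exact (hφ _).mul_posAt (PosAt.pow_sub_pow ha ha' h i)

end Aux

theorem iso : Stmt_Iso := by
  intro B' F' B F _ _ _ _ _ _ _ _ _ _ ι P' P hP' hP h1 hpos hunit hres hint hnor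
  have hφ : ∀ r : B', IntAt P ((ι.comp (algebraMap B' F')) r) := by
    intro r
    obtain ⟨b, hb⟩ := h1 r
    rw [RingHom.comp_apply, ← hb]
    exact intAt_algebraMap b
  -- lifting units along (RES)
  have hlift : ∀ z : F, UnitAt P z → ∃ z' : F', UnitAt P' z' ∧ PosAt P (z - ι z') := by
    intro z hz
    obtain ⟨z', hz'⟩ := hres z hz
    refine ⟨z', (hunit z').2 (hz.of_sub_posAt ?_), hz'⟩
    have := hz'.neg
    rwa [neg_sub] at this
  have hiso : IsoMod (B' := B') ι P := by
    intro b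
    by_cases hb : b ∈ P
    · refine ⟨0, ?_⟩
      rw [map_zero, map_zero, sub_zero]
      exact posAt_algebraMap hb
    · obtain ⟨y', hy'u, hy'⟩ := hlift _ (unitAt_algebraMap (F := F) hb)
      obtain ⟨p, hp, hpb⟩ := hint b
      have h2 : PosAt P (p.eval₂ (ι.comp (algebraMap B' F')) (ι y')) := by
        have h3 := Iso_eval₂_sub _ hφ p (intAt_algebraMap b) ((hunit y').1 hy'u).intAt hy'
        have h4 := hpb.sub h3
        rwa [sub_sub_cancel] at h4
      rw [← hom_eval₂, ← hpos] at h2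
      obtain ⟨y, hy⟩ := hnor y' hy'u.intAt ⟨p, hp, h2⟩
      refine ⟨y, ?_⟩
      have h5 := hy'.add ((hpos _).1 hy)
      rwa [map_sub, sub_add_sub_cancel] at h5
  refine ⟨hiso, ?_⟩
  rintro z hz ⟨p, hp, hpz⟩
  by_cases hzp : PosAt P z
  · refine ⟨0, ?_⟩
    rwa [map_zero, sub_zero]
  · obtain ⟨z', hz'u, hz'⟩ := hlift z (hz.unitAt_of_not_posAt hzp)
    have hιz' : IntAt P (ι z') := ((hunit z').1 hz'u).intAt
    choose y hy using fun i : ℕ => hiso (p.coeff i)
    set n := p.natDegree with hn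
    set p' : B'[X] := X ^ n + ∑ i : Fin n, C (y i) * X ^ (i : ℕ) with hp'
    have hp'm : p'.Monic := monic_X_pow_add (degree_sum_fin_lt _)
    have e1 : ι (aeval z' p') = (ι z') ^ n +
        ∑ i ∈ Finset.range n, ι (algebraMap B' F' (y i)) * (ι z') ^ i := by
      rw [hp', map_add, map_pow, aeval_X, map_sum, map_add, map_pow, map_sum,
        ← Fin.sum_univ_eq_sum_range (fun i => ι (algebraMap B' F' (y i)) * (ι z') ^ i)]
      congr 1
      refine Finset.sum_congr rfl fun i _ => ?_
      rw [map_mul, aeval_C, map_pow, aeval_X, map_mul, map_pow]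
    have e2 : aeval z p = z ^ n + ∑ i ∈ Finset.range n, algebraMap B F (p.coeff i) * z ^ i := by
      conv_lhs => rw [hp.as_sum]
      rw [map_add, map_pow, aeval_X, map_sum]
      congr 1
      refine Finset.sum_congr rfl fun i _ => ?_
      rw [map_mul, aeval_C, map_pow, aeval_X]
    have h2 : PosAt P (aeval z p - ι (aeval z' p')) := by
      rw [e1, e2, add_sub_add_comm, ← Finset.sum_sub_distrib]
      refine (PosAt.pow_sub_pow hz hιz' hz' n).add (Iso_posAt_sum _ _ fun i _ => ?_)
      exact Iso_mul_sub_mul (intAt_algebraMap _) (hιz'.pow i) (hy i)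
        (PosAt.pow_sub_pow hz hιz' hz' i)
    have h3 : PosAt P (ι (aeval z' p')) := by
      have := hpz.sub h2
      rwa [sub_sub_cancel] at this
    obtain ⟨w, hw⟩ := hnor z' hz'u.intAt ⟨p', hp'm, (hpos _).2 h3⟩
    obtain ⟨b, hb⟩ := h1 w
    refine ⟨b, ?_⟩
    have h5 := hz'.add ((hpos _).1 hw)
    rwa [map_sub, sub_add_sub_cancel, ← hb] at h5

end Fermat.Agent.S36.Loc
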