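import Fermat.Agent.S36.Loc.Interface2
import Fermat.Agent.S36.Loc.Iso
import Fermat.Agent.S36.Val.Vert

/-!
# S36 / Loc / LOC-ISOV : `Stmt_Iso` for two charts and two valuation rings (helper8, task 1215)
-/

set_option autoImplicit false

noncomputable section

namespace Fermat.Agent.S36.Loc

open Fermat.Agent
open Fermat.Agent.KL (Chart PolyR cst crd polyX)
open Fermat.Agent.S36.Val
open Polynomial

section Aux

variable {A₀ F' F : Type} [CommRing A₀] [Field F'] [Field F] [Algebra A₀ F'] [Algebra A₀ F]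

/-- `ι (A₀[t']) ⊆ Chart(t)`. -/
theorem IsoV_poly_mem (ι : F' →+* F) (t' : F') (t : F)
    (hι : ∀ a : A₀, ι (algebraMap A₀ F' a) = algebraMap A₀ F a)
    (ht' : IsIntegral (PolyR A₀ t) (ι t')) (x : F') (hx : x ∈ PolyR A₀ t') :
    IsIntegral (PolyR A₀ t) (ι x) := by
  induction hx using Algebra.adjoin_induction with
  | mem x hx =>
    rw [Set.mem_singleton_iff] at hx
    rw [hx]
    exact ht'
  | algebraMap a =>
    rw [hι, IsScalarTower.algebraMap_apply A₀ (PolyR A₀ t) F]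
    exact isIntegral_algebraMap
  | add x y _ _ hx hy => rw [map_add]; exact hx.add hy
  | mul x y _ _ hx hy => rw [map_mul]; exact hx.mul hy

/-- `ι (Chart(t')) ⊆ Chart(t)`. -/
theorem IsoV_chart_mem (ι : F' →+* F) (t' : F') (t : F)
    (hι : ∀ a : A₀, ι (algebraMap A₀ F' a) = algebraMap A₀ F a)
    (ht' : IsIntegral (PolyR A₀ t) (ι t')) (y : F') (hy : IsIntegral (PolyR A₀ t') y) :
    IsIntegral (PolyR A₀ t) (ι y) := by
  let φ : PolyR A₀ t' →+* Chart A₀ t :=
    (ι.comp (algebraMap (PolyR A₀ t') F')).codRestrict (Chart A₀ t)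
      (fun x => IsoV_poly_mem ι t' t hι ht' x x.2)
  have h : IsIntegral (Chart A₀ t) (ι y) :=
    IsIntegral.map_of_comp_eq φ ι (by ext x; rfl) hy
  exact isIntegral_trans _ h

/-- the coordinate ring `A₀[t]` is a quotient of `A₀[X]`. -/
theorem IsoV_aeval_coe (t : F) (f : A₀[X]) :
    ((aeval (polyX A₀ t) f : PolyR A₀ t) : F) = f.eval₂ (algebraMap A₀ F) t :=
  (Polynomial.aeval_algHom_apply (PolyR A₀ t).val (polyX A₀ t) f).symm

theorem IsoV_aeval_surj (t : F) :
    Function.Surjective ((aeval (polyX A₀ t) : A₀[X] →ₐ[A₀] PolyR A₀ t) : A₀[X] →+* PolyR A₀ t) := by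
  rintro ⟨x, hx⟩
  have hx' : x ∈ (aeval t : A₀[X] →ₐ[A₀] F).range := by
    rw [← Algebra.adjoin_singleton_eq_range_aeval]
    exact hx
  obtain ⟨f, hf⟩ := hx'
  exact ⟨f, Subtype.ext ((IsoV_aeval_coe t f).trans hf)⟩

end Aux

/-- two ring homomorphisms congruent modulo `P`: the evaluations are congruent. -/
theorem IsoV_eval₂_congr {B F R : Type*} [CommRing B] [Field F] [Algebra B F] {P : Ideal B}
    [P.IsPrime] [CommRing R] (φ₁ φ₂ : R →+* F) (h : ∀ r, PosAt P (φ₁ r - φ₂ r)) (q : R[X]) {b : F}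
    (hb : IntAt P b) : PosAt P (q.eval₂ φ₁ b - q.eval₂ φ₂ b) := by
  rw [eval₂_eq_sum_range, eval₂_eq_sum_range, ← Finset.sum_sub_distrib]
  refine Iso_posAt_sum _ _ fun i _ => ?_
  rw [← sub_mul]
  exact (h _).mul_intAt (hb.pow i)

/-- **LOC-ISOV**. -/
theorem isoV : Stmt_IsoV := by
  intro A₀ F' F _ _ _ _ _ ι t' g t V W P' P hfr' hfr hι hP' hP hV hW hO ht' hg hcong hres hnor
  have h1 : ∀ y : Chart A₀ t', ∃ b : Chart A₀ t,
      algebraMap (Chart A₀ t) F b = ι (algebraMap (Chart A₀ t') F' y) := fun y =>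
    ⟨⟨ι y, IsoV_chart_mem ι t' t hι ht' y y.2⟩, rfl⟩
  refine iso (Chart A₀ t') F' (Chart A₀ t) F ι P' P hP' hP h1 ?_ ?_ ?_ ?_ hnor
  · intro z
    rw [(hV z).1, (hW (ι z)).1, C2_over_lt hO]
  · intro z
    rw [(hV z).2.1, (hW (ι z)).2.1, C2_over_eq hO]
  · intro y hy
    obtain ⟨y', hy'⟩ := hres y ((hW y).2.1.1 hy)
    exact ⟨y', (hW _).1.2 hy'⟩
  · intro b
    obtain ⟨p₀, hp₀, hb⟩ := b.2
    let θ : A₀[X] →+* PolyR A₀ t := (aeval (polyX A₀ t) : A₀[X] →ₐ[A₀] PolyR A₀ t)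
    have hθ : Function.Surjective θ := IsoV_aeval_surj t
    obtain ⟨q, hq, -, hqm⟩ := lifts_and_natDegree_eq_and_monic
      ((mem_lifts _).2 (map_surjective θ hθ p₀)) hp₀
    let G : Chart A₀ t' := ⟨g, hg⟩
    let c' : A₀ →+* Chart A₀ t' :=
      (algebraMap (PolyR A₀ t') (Chart A₀ t')).comp (algebraMap A₀ (PolyR A₀ t'))
    let θ' : A₀[X] →+* Chart A₀ t' := eval₂RingHom c' G
    refine ⟨q.map θ', hqm.map θ', ?_⟩
    rw [eval₂_map]
    have h0 : q.eval₂ ((algebraMap (PolyR A₀ t) F).comp θ) (algebraMap (Chart A₀ t) F b) = 0 := by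
      rw [← eval₂_map, hq]
      exact hb
    have hA : ∀ a : A₀, IntAt P (algebraMap A₀ F a) := fun a =>
      intAt_algebraMap (F := F) (P := P) (cst A₀ t a)
    have hT : IntAt P t := intAt_algebraMap (F := F) (P := P) (crd A₀ t)
    have hιg : IntAt P (ι g) := by
      obtain ⟨b', hb'⟩ := h1 G
      have : ι g = algebraMap (Chart A₀ t) F b' := hb'.symm
      rw [this]
      exact intAt_algebraMap b'
    have hc : PosAt P (ι g - t) := by
      have := ((hW _).1.2 hcong).neg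
      rwa [neg_sub] at this
    have key := IsoV_eval₂_congr (P := P) ((ι.comp (algebraMap (Chart A₀ t') F')).comp θ')
      ((algebraMap (PolyR A₀ t) F).comp θ) (fun f => ?_) q (intAt_algebraMap b)
    · rwa [h0, sub_zero] at key
    · have e1 : ((ι.comp (algebraMap (Chart A₀ t') F')).comp θ') f
          = f.eval₂ (algebraMap A₀ F) (ι g) := by
        show ι (algebraMap (Chart A₀ t') F' (f.eval₂ c' G)) = _
        rw [hom_eval₂, hom_eval₂]
        congr 1
        ext a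
        exact hι a
      have e2 : ((algebraMap (PolyR A₀ t) F).comp θ) f = f.eval₂ (algebraMap A₀ F) t :=
        IsoV_aeval_coe t f
      rw [e1, e2]
      exact Iso_eval₂_sub (algebraMap A₀ F) hA f hιg hT hc

end Fermat.Agent.S36.Loc

end
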