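import Fermat.Agent.S36.Loc.Interface2

/-!
# S36 / Loc : MUT-ABS, mutual integrality of `τ`, `τ₁` from the cusp types and `Φ_r`
-/

set_option autoImplicit false

namespace Fermat.Agent.S36.Loc

open Fermat.Agent

theorem MutAbs_not_mem_iff {F : Type} [Field F] (O : ValuationSubring F) {X : F} (hX : X ≠ 0) :
    X ∉ O ↔ O.valuation X⁻¹ < 1 := by
  have h0 : 0 < O.valuation X := zero_lt_iff.2 ((map_ne_zero _).2 hX)
  rw [map_inv₀, inv_lt_one₀ h0, ← not_le, ValuationSubring.valuation_le_one_iff]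

theorem MutAbs_step (h2 : Stmt_DichV) {F : Type} [Field F] (O : ValuationSubring F) (r : ℕ)
    (c : ℕ → ℕ → ℤ) (X Y : F) (hr : 2 ≤ r) (hc : Reg.PhiShape r c) (hX : X ≠ 0) (hY : Y ≠ 0)
    (hrel : ∑ i ∈ Finset.range (r + 2), ∑ j ∈ Finset.range (r + 2),
        ((c i j : ℤ) : F) * Y⁻¹ ^ i * X⁻¹ ^ j = 0) (hXO : X ∉ O) :
    Y ∉ O ∧ (O.valuation Y = O.valuation X ^ r ∨ O.valuation X = O.valuation Y ^ r) := by
  obtain ⟨-, hlt, hor⟩ := h2 F O r c Y⁻¹ X⁻¹ hr hc (inv_ne_zero hX)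
    ((MutAbs_not_mem_iff O hX).1 hXO) hrel
  refine ⟨(MutAbs_not_mem_iff O hY).2 hlt, ?_⟩
  rw [map_inv₀, map_inv₀, inv_pow, inv_pow, inv_inj, inv_inj] at hor
  exact hor

theorem mutAbs (h1 : Stmt_ValCrit) (h2 : Stmt_DichV) (h3 : Stmt_CuspStep) : Stmt_MutAbs := by
  intro A₀ F _ _ _ a r c τ J J' τ₁ J₁ J₁' ha hr hcop hc hτ hτ₁ hJ hJ' hJ₁ hJ₁' hT hT₁ hrel
  have key : ∀ O : ValuationSubring F, (∀ x : A₀, algebraMap A₀ F x ∈ O) →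
      (τ ∈ O ↔ τ₁ ∈ O) ∧ (τ⁻¹ ∈ O ↔ τ₁⁻¹ ∈ O) := by
    intro O hO
    have s1 := MutAbs_step h2 O r c J J₁ hr hc hJ hJ₁ (hrel _ _ (Or.inl ⟨rfl, rfl⟩))
    have s2 := MutAbs_step h2 O r c J₁ J hr hc hJ₁ hJ (hrel _ _ (Or.inr (Or.inl ⟨rfl, rfl⟩)))
    have s3 := MutAbs_step h2 O r c J' J₁' hr hc hJ' hJ₁'
      (hrel _ _ (Or.inr (Or.inr (Or.inl ⟨rfl, rfl⟩))))
    refine h3 F O a r τ J J' τ₁ J₁ J₁' ha hr hcop hτ hτ₁ (hT O hO) (hT₁ O hO) ?_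
      (fun h => (s1 h).2) (fun h => (s3 h).2)
    constructor
    · intro h
      by_contra h'
      exact (s2 h').1 h
    · intro h
      by_contra h'
      exact (s1 h').1 h
  exact ⟨h1 A₀ F τ τ₁ fun O hO h => (key O hO).1.1 h, h1 A₀ F τ₁ τ fun O hO h => (key O hO).1.2 h,
    h1 A₀ F τ⁻¹ τ₁⁻¹ fun O hO h => (key O hO).2.1 h,
    h1 A₀ F τ₁⁻¹ τ⁻¹ fun O hO h => (key O hO).2.2 h⟩

end Fermat.Agent.S36.Loc
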