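import Fermat.Agent.S36.Loc.Interface2

/-!
# S36 / Loc, task LOC-MUT (helper16): `t_a(q)`, `t_a(q^r)`, `t_a(q^(r²))` are mutually integral.
-/

set_option autoImplicit false
set_option synthInstance.maxHeartbeats 400000

noncomputable section

namespace Fermat.Agent.S36.Loc

open Fermat.Agent
open Fermat.Agent.KL (Chart PolyR cst crd FinOverR)
open Fermat.Agent.S36.Val
open Fermat.Agent.S36.Base
open Fermat.Agent.S24 (Qbar FF)
open ModularCurve (qExpand coeffMap)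
open Polynomial

/-! ### abstract part -/

theorem MUTC_val_one {F : Type} [Field F] (O : ValuationSubring F) {x y : F} (hx : x ∈ O)
    (hy : y ∈ O) (hxy : x * y = 1) : O.valuation x = 1 := by
  have h1 := (O.valuation_le_one_iff x).2 hx
  have h2 := (O.valuation_le_one_iff y).2 hy
  have h3 : O.valuation x * O.valuation y = 1 := by rw [← map_mul, hxy, map_one]
  refine le_antisymm h1 ?_
  calc (1 : O.ValueGroup) = O.valuation x * O.valuation y := h3.symm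
    _ ≤ O.valuation x * 1 := by gcongr
    _ = O.valuation x := mul_one _

theorem MUTC_val_unit {A₀ F : Type} [CommRing A₀] [Field F] [Algebra A₀ F] (O : ValuationSubring F)
    (hO : ∀ x : A₀, algebraMap A₀ F x ∈ O) {u : A₀} (hu : IsUnit u) :
    O.valuation (algebraMap A₀ F u) = 1 := by
  obtain ⟨w, hw⟩ := hu.exists_right_inv
  refine MUTC_val_one O (hO u) (hO w) ?_
  rw [← map_mul, hw, map_one]

theorem MUTC_Vq_one (K : Type) [CommRing K] (x : LaurentSeries K) : S28.Vq K 1 x = x := by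
  rw [S28.Vq_eq]; exact ModularCurve.qExpand_one_apply x

theorem MUTC_tq_ne_zero (K : Type) [Field K] (a : ℕ) : HM.tq a K ≠ 0 := by
  intro h
  have := HM.coeff_tq_neg_one K a
  rw [h] at this
  exact zero_ne_one this

theorem MUTC_jd_ne_zero (K : Type) [Field K] (d : ℕ) : S28.jd K d ≠ 0 := by
  rw [S28.jd]
  exact (map_ne_zero (S28.Vq K d)).2 (ModularCurve.jqModC_ne_zero_of_nontrivial K)

theorem MUTC_pull {F L : Type} [Field F] [Field L] (φ : F →+* L) (r : ℕ) (c : ℕ → ℕ → ℤ) (Z W : F)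
    (h : ∑ i ∈ Finset.range (r + 2), ∑ j ∈ Finset.range (r + 2),
      ((c i j : ℤ) : L) * (φ Z) ^ i * (φ W) ^ j = 0) :
    ∑ i ∈ Finset.range (r + 2), ∑ j ∈ Finset.range (r + 2),
      ((c i j : ℤ) : F) * Z ^ i * W ^ j = 0 := by
  apply φ.injective
  rw [map_zero, map_sum]
  simp only [map_sum, map_mul, map_pow, map_intCast]
  exact h

/-- the type of a valuation ring with respect to the cusps of `X₀(a)`, at the level `q ↦ q^e`. -/
theorem MUTC_type (h4 : Stmt_Type4) (h9 : Stmt_Type9) {F K : Type} [Field F] [Field K]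
    (φ : F →+* LaurentSeries K) (a e : ℕ) (ha : a = 4 ∨ a = 9) (he : e ≠ 0)
    (O : ValuationSubring F) (h2 : a = 4 → O.valuation (2 : F) = 1)
    (h3 : a = 9 → O.valuation (3 : F) = 1) (τ J J' : F)
    (hτ : φ τ = S28.Vq K e (HM.tq a K)) (hJ : φ J = S28.jd K e)
    (hJ' : φ J' = S28.jd K (e * a)) : CuspType O a τ J J' := by
  rcases ha with rfl | rfl
  · have ht : HM.tq 4 K = HM.tq4 K := by rw [HM.tq, if_pos rfl]
    rw [ht] at hτ
    refine h4 F O τ J J' (h2 rfl) ?_ ?_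
    · apply φ.injective
      have h := congrArg (S28.Vq K e) (HM.r4_j1 K)
      simp only [map_mul, map_pow, map_add, map_ofNat] at h ⊢
      rw [HM.Vq_jd K he one_ne_zero, mul_one] at h
      rw [hτ, hJ]; exact h
    · apply φ.injective
      have h := congrArg (S28.Vq K e) (HM.r4_j4 K)
      simp only [map_mul, map_pow, map_add, map_ofNat] at h ⊢
      rw [HM.Vq_jd K he (by norm_num)] at h
      rw [hτ, hJ']; exact h
  · have ht : HM.tq 9 K = HM.tq9 K := by rw [HM.tq, if_neg (by norm_num)]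
    rw [ht] at hτ
    refine h9 F O τ J J' (h3 rfl) ?_ ?_
    · apply φ.injective
      have h := congrArg (S28.Vq K e) (HM.r9_j1 K)
      simp only [map_mul, map_pow, map_add, map_ofNat] at h ⊢
      rw [HM.Vq_jd K he one_ne_zero, mul_one] at h
      rw [hτ, hJ]; exact h
    · apply φ.injective
      have h := congrArg (S28.Vq K e) (HM.r9_j9 K)
      simp only [map_mul, map_pow, map_add, map_ofNat] at h ⊢
      rw [HM.Vq_jd K he (by norm_num)] at h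
      rw [hτ, hJ']; exact h

/-- one step `q^e ↦ q^(r e)`. -/
theorem MUTC_step (h1 : Stmt_MutAbs) (h4 : Stmt_Type4) (h9 : Stmt_Type9) (hΦ : Phi.Stmt_Phi)
    (A₀ F K : Type) [CommRing A₀] [Field F] [Algebra A₀ F] [Field K]
    (φ : F →+* LaurentSeries K) (a r e : ℕ) (ha : a = 4 ∨ a = 9) (hr : r.Prime)
    (har : Nat.Coprime a r) (he : e ≠ 0)
    (h2 : a = 4 → ∀ O : ValuationSubring F, (∀ x : A₀, algebraMap A₀ F x ∈ O) →
      O.valuation (2 : F) = 1)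
    (h3 : a = 9 → ∀ O : ValuationSubring F, (∀ x : A₀, algebraMap A₀ F x ∈ O) →
      O.valuation (3 : F) = 1)
    (τ J J' τ₁ J₁ J₁' : F)
    (hτ : φ τ = S28.Vq K e (HM.tq a K)) (hJ : φ J = S28.jd K e) (hJ' : φ J' = S28.jd K (e * a))
    (hτ₁ : φ τ₁ = S28.Vq K (r * e) (HM.tq a K)) (hJ₁ : φ J₁ = S28.jd K (r * e))
    (hJ₁' : φ J₁' = S28.jd K (r * (e * a))) : MutInt A₀ τ τ₁ := by
  obtain ⟨c, hc, hrel⟩ := hΦ r hr
  have ha0 : a ≠ 0 := by rcases ha with rfl | rfl <;> norm_num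
  have ha2 : 2 ≤ a := by rcases ha with rfl | rfl <;> norm_num
  have hre : r * e ≠ 0 := mul_ne_zero hr.ne_zero he
  have hne : ∀ x : F, φ x ≠ 0 → x ≠ 0 := fun x hx h => hx (by rw [h, map_zero])
  have hVne : ∀ d : ℕ, S28.Vq K d (HM.tq a K) ≠ 0 := fun d =>
    (map_ne_zero (S28.Vq K d)).2 (MUTC_tq_ne_zero K a)
  refine h1 A₀ F a r c τ J J' τ₁ J₁ J₁' ha2 hr.two_le har hc
    (hne _ (by rw [hτ]; exact hVne e)) (hne _ (by rw [hτ₁]; exact hVne _))
    (hne _ (by rw [hJ]; exact MUTC_jd_ne_zero K _)) (hne _ (by rw [hJ']; exact MUTC_jd_ne_zero K _))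
    (hne _ (by rw [hJ₁]; exact MUTC_jd_ne_zero K _))
    (hne _ (by rw [hJ₁']; exact MUTC_jd_ne_zero K _)) ?_ ?_ ?_
  · intro O hO
    exact MUTC_type h4 h9 φ a e ha he O (fun h => h2 h O hO) (fun h => h3 h O hO) τ J J' hτ hJ hJ'
  · intro O hO
    refine MUTC_type h4 h9 φ a (r * e) ha hre O (fun h => h2 h O hO) (fun h => h3 h O hO) τ₁ J₁ J₁'
      hτ₁ hJ₁ ?_
    rw [hJ₁', mul_assoc]
  · intro Z W hZW
    apply MUTC_pull φ
    rcases hZW with ⟨rfl, rfl⟩ | ⟨rfl, rfl⟩ | ⟨rfl, rfl⟩ | ⟨rfl, rfl⟩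
    · rw [map_inv₀, map_inv₀, hJ, hJ₁]
      exact (hrel K e (Nat.pos_of_ne_zero he)).1
    · rw [map_inv₀, map_inv₀, hJ, hJ₁]
      exact (hrel K e (Nat.pos_of_ne_zero he)).2
    · rw [map_inv₀, map_inv₀, hJ', hJ₁']
      exact (hrel K (e * a) (Nat.pos_of_ne_zero (mul_ne_zero he ha0))).1
    · rw [map_inv₀, map_inv₀, hJ', hJ₁']
      exact (hrel K (e * a) (Nat.pos_of_ne_zero (mul_ne_zero he ha0))).2

/-- the abstract form of `Stmt_Mut`. -/
theorem MUTC_abs (h1 : Stmt_MutAbs) (hT : Stmt_MutTrans) (h4 : Stmt_Type4) (h9 : Stmt_Type9)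
    (hΦ : Phi.Stmt_Phi)
    (A₀ F K : Type) [CommRing A₀] [Field F] [Algebra A₀ F] [Field K]
    (φ : F →+* LaurentSeries K) (a r : ℕ) (ha : a = 4 ∨ a = 9) (hr : r.Prime)
    (har : Nat.Coprime a r)
    (h2 : a = 4 → ∀ O : ValuationSubring F, (∀ x : A₀, algebraMap A₀ F x ∈ O) →
      O.valuation (2 : F) = 1)
    (h3 : a = 9 → ∀ O : ValuationSubring F, (∀ x : A₀, algebraMap A₀ F x ∈ O) →
      O.valuation (3 : F) = 1)
    (τ₀ τ₁ τ₂ : F) (J : ℕ → F)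
    (hτ₀ : φ τ₀ = HM.tq a K) (hτ₁ : φ τ₁ = S28.Vq K r (HM.tq a K))
    (hτ₂ : φ τ₂ = S28.Vq K r (S28.Vq K r (HM.tq a K)))
    (hJ : ∀ d : ℕ, d ∣ r ^ 2 * a → φ (J d) = S28.jd K d) : MutInt A₀ τ₀ τ₂ := by
  have s1 : MutInt A₀ τ₀ τ₁ :=
    MUTC_step h1 h4 h9 hΦ A₀ F K φ a r 1 ha hr har one_ne_zero h2 h3
      τ₀ (J 1) (J (1 * a)) τ₁ (J (r * 1)) (J (r * (1 * a)))
      (by rw [hτ₀, MUTC_Vq_one]) (hJ _ (one_dvd _)) (hJ _ ⟨r ^ 2, by ring⟩)
      (by rw [hτ₁, mul_one]) (hJ _ ⟨r * a, by ring⟩) (hJ _ ⟨r, by ring⟩)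
  have s2 : MutInt A₀ τ₁ τ₂ :=
    MUTC_step h1 h4 h9 hΦ A₀ F K φ a r r ha hr har hr.ne_zero h2 h3
      τ₁ (J r) (J (r * a)) τ₂ (J (r * r)) (J (r * (r * a)))
      hτ₁ (hJ _ ⟨r * a, by ring⟩) (hJ _ ⟨r, by ring⟩)
      (by rw [hτ₂, S28.tower_Vq_Vq K hr.ne_zero hr.ne_zero]) (hJ _ ⟨a, by ring⟩)
      (hJ _ ⟨1, by ring⟩)
  exact hT A₀ F τ₀ τ₁ τ₂ s1 s2

/-! ### concrete part -/

theorem mutC (h1 : Stmt_MutAbs) (h2 : Stmt_MutTrans) (h4 : Stmt_Type4) (h9 : Stmt_Type9)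
    (hΦ : Phi.Stmt_Phi) (hMu : Base.Stmt_Mu) : Stmt_Mut := by
  intro A r M a _ _ _ _ C v01 t₀ hv01 ha haM har ht₀
  have hu : ∀ m : ℕ, m ≠ 0 → ¬ r ∣ m → ∀ O : ValuationSubring (FE A (r ^ 2 * M)),
      (∀ x : AE A, algebraMap (AE A) (FE A (r ^ 2 * M)) x ∈ O) →
      O.valuation ((m : ℕ) : FE A (r ^ 2 * M)) = 1 := by
    intro m hm hrm O hO
    have := MUTC_val_unit O hO (hMu r A C.hr C.hA m hm hrm).1
    rwa [map_natCast] at this
  refine MUTC_abs h1 h2 h4 h9 hΦ (AE A) (FE A (r ^ 2 * M)) (IE A)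
    (algebraMap (FE A (r ^ 2 * M)) (Base.LE A)) a r ha C.hr har ?_ ?_
    (C.i12 (C.i01 t₀)) (C.v12 (C.i01 t₀)) (C.v12 (v01 t₀)) (fun d => jE A (r ^ 2 * M) d) ?_ ?_ ?_ ?_
  · intro h O hO
    subst h
    have hr2 : ¬ r ∣ 2 := by
      intro hd
      have h4' : r ∣ 4 := hd.trans (by norm_num)
      have := Nat.eq_one_of_dvd_coprimes har h4' dvd_rfl
      exact C.hr.one_lt.ne' this
    have := hu 2 two_ne_zero hr2 O hO
    exact_mod_cast this
  · intro h O hO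
    subst h
    have hr3 : ¬ r ∣ 3 := by
      intro hd
      have h9' : r ∣ 9 := hd.trans (by norm_num)
      have := Nat.eq_one_of_dvd_coprimes har h9' dvd_rfl
      exact C.hr.one_lt.ne' this
    have := hu 3 three_ne_zero hr3 O hO
    exact_mod_cast this
  · show ((C.i12 (C.i01 t₀) : FE A (r ^ 2 * M)) : Base.LE A) = _
    rw [C.hi12, C.hi01, ht₀]
  · show ((C.v12 (C.i01 t₀) : FE A (r ^ 2 * M)) : Base.LE A) = _
    rw [C.hv12, C.hi01, ht₀, S28.Vq_eq]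
  · show ((C.v12 (v01 t₀) : FE A (r ^ 2 * M)) : Base.LE A) = _
    rw [C.hv12, hv01, ht₀, S28.Vq_eq]
  · intro d hd
    exact isJE_jE A (r ^ 2 * M) (hd.trans (Nat.mul_dvd_mul_left _ haM))

end Fermat.Agent.S36.Loc

end
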