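/-
S36 / Loc, task LOC-SIDE (helper31): one side on one chart.
-/
import Fermat.Agent.S36.Loc.Interface2
import Fermat.Agent.S36.Val.Vert
import Fermat.Agent.KL.PolyRing
import Fermat.Agent.KL.PolyRing4

set_option autoImplicit false

noncomputable section

namespace Fermat.Agent.S36.Loc

open Fermat.Agent
open Fermat.Agent.KL (Chart PolyR cst crd FinOverR polyX stmt_polyRConcrete stmt_chartBasic)
open Fermat.Agent.S36.Val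

/-- composition of `Over`. -/
theorem Side_over_comp {K₀ K₁ K₂ : Type*} [Field K₀] [Field K₁] [Field K₂] {ι : K₀ →+* K₁}
    {π : K₁ →+* K₂} {V₀ : ValuationSubring K₀} {V₁ : ValuationSubring K₁}
    {V₂ : ValuationSubring K₂} (h₁ : Over ι V₀ V₁) (h₂ : Over π V₁ V₂) :
    Over (π.comp ι) V₀ V₂ := fun a => by
  rw [RingHom.comp_apply, h₂, h₁]

/-- (RES) for the composite. -/
theorem Side_res {F₀ F₁ F B : Type} [Field F₀] [Field F₁] [Field F] [CommRing B] [Algebra B F]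
    (ι₁ : F₀ →+* F₁) (π : F₁ →+* F) (o : F → ℤ) (V₀ : ValuationSubring F₀)
    (V₁ : ValuationSubring F₁) (W : ValuationSubring F) (P : Ideal B)
    (hπ : Over π V₁ W) (hres₁ : ∀ x ∈ V₁, ∃ c ∈ V₀, V₁.valuation (x - ι₁ c) < 1)
    (hres : ∀ y : F, VUnit o y → ∃ y' : F₁, VPos o (y - π y'))
    (hV : IsCenV P W) (hC : IsCen P o) (y : F) (hy : W.valuation y = 1) :
    ∃ y' : F₀, W.valuation (y - (π.comp ι₁) y') < 1 := by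
  have h1 : UnitAt P y := ((hV y).2.1).mpr hy
  have h2 : VUnit o y := ((hC y).2).mp h1
  obtain ⟨y', hy'⟩ := hres y h2
  have h3 : W.valuation (y - π y') < 1 := ((hV _).1).mp (((hC _).1).mpr hy')
  have h4 : π y' ∈ W := by
    have e : π y' = y - (y - π y') := by ring
    rw [e]
    exact W.sub_mem ((W.valuation_le_one_iff _).mp hy.le) ((W.valuation_le_one_iff _).mp h3.le)
  have h5 : y' ∈ V₁ := (hπ y').mp h4
  obtain ⟨c, -, hc⟩ := hres₁ y' h5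
  have h6 : W.valuation (π (y' - ι₁ c)) < 1 := (C2_over_lt hπ _).mpr hc
  refine ⟨c, ?_⟩
  have e : y - (π.comp ι₁) c = (y - π y') + π (y' - ι₁ c) := by
    rw [RingHom.comp_apply, map_sub]; ring
  rw [e]
  exact Valuation.map_add_lt _ h3 h6

theorem side (h1 : Stmt_IsoV) (h2 : Stmt_NorV) (h3 : Val.Stmt_CenAbs) : Stmt_Side := by
  intro A₀ F₀ F₁ F _ _ _ _ _ _ _ _ _ _ _ _ _ ϖ t₀ g₁ g₂ t r ι₁ o₁ o₂ o₃ D V₀ V₁ W₁ W₂
    hϖ ht₀ hfin₀ ht hfin hconst hvert hnor hι₁ hW₁ hW₂ hres₁ hint hg₁ hg₁' hg₂ hg₂' P hP hcase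
  -- chart facts
  obtain ⟨hpv₀, -, -⟩ := stmt_polyRConcrete A₀ F₀ t₀ ht₀
  obtain ⟨hpv, -, -⟩ := stmt_polyRConcrete A₀ F t ht
  obtain ⟨-, -, -, -, hfr₀, -, -⟩ :=
    stmt_chartBasic A₀ (PolyR A₀ t₀) F₀ (Chart A₀ t₀) (polyX A₀ t₀) hpv₀ hfin₀
  obtain ⟨-, -, -, -, hfr, -, -⟩ :=
    stmt_chartBasic A₀ (PolyR A₀ t) F (Chart A₀ t) (polyX A₀ t) hpv hfin
  -- the prime `P₀`
  obtain ⟨P₀, hP₀min, hP₀cen⟩ := (h3 A₀ F₀ ϖ t₀ hϖ ht₀ hfin₀).2 V₀ hvert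
  have hP₀ : P₀.IsPrime := hP₀min.1.1
  have hnor₀ : NorInt F₀ P₀ := h2 A₀ F₀ t₀ V₀ P₀ hP₀ hP₀cen hnor
  have hc : ∀ a : A₀, (D.π.comp ι₁) (algebraMap A₀ F₀ a) = algebraMap A₀ F a := by
    intro a
    rw [RingHom.comp_apply, hconst, D.π_const]
  rcases hcase with ⟨hV, hC⟩ | ⟨hV, hC⟩
  · obtain ⟨a, b⟩ := h1 A₀ F₀ F (D.π.comp ι₁) t₀ g₁ t V₀ W₁ P₀ P hfr₀ hfr hc hP₀ hP hP₀cen hV
      (Side_over_comp hι₁ hW₁) hint hg₁ hg₁'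
      (Side_res ι₁ D.π o₁ V₀ V₁ W₁ P hW₁ hres₁ D.res₁ hV hC) hnor₀
    exact ⟨b, a⟩
  · obtain ⟨a, b⟩ := h1 A₀ F₀ F (D.π.comp ι₁) t₀ g₂ t V₀ W₂ P₀ P hfr₀ hfr hc hP₀ hP hP₀cen hV
      (Side_over_comp hι₁ hW₂) hint hg₂ hg₂'
      (Side_res ι₁ D.π o₂ V₀ V₁ W₂ P hW₂ hres₁ D.res₂ hV hC) hnor₀
    exact ⟨b, a⟩

end Fermat.Agent.S36.Loc

end

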