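import Fermat.Agent.S36.Loc.Interface2

/-!
# S36 / Loc, task MUT-T4 : position of a valuation ring with respect to the cusps of `X₀(4)`
-/

set_option autoImplicit false

namespace Fermat.Agent.S36.Loc

theorem T4_dom {F Γ₀ : Type*} [Field F] [LinearOrderedCommGroupWithZero Γ₀] (v : Valuation F Γ₀)
    {a b c : F} (hb : v b < v a) (hc : v c < v a) : v (a + b + c) = v a := by
  have h1 : v (a + b) = v a := Valuation.map_add_eq_of_lt_left v hb
  rw [Valuation.map_add_eq_of_lt_left v (by rw [h1]; exact hc), h1]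

/-- the three cases, for an abstract valuation. -/
theorem T4_core {F Γ₀ : Type*} [Field F] [LinearOrderedCommGroupWithZero Γ₀] (v : Valuation F Γ₀)
    (hnat : ∀ n : ℕ, v (n : F) ≤ 1) (τ J J' : F) (h2 : v (2 : F) = 1)
    (hJ : J * (τ ^ 4 * (τ + 16)) = (τ ^ 2 + 256 * τ + 4096) ^ 3)
    (hJ' : J' * (τ * (τ + 16)) = (τ ^ 2 + 16 * τ + 16) ^ 3) :
    (v J ≤ 1 ∧ v τ = 1) ∨
      (1 < v J ∧ 1 < v J' ∧
        ((1 < v τ ∧ v J' = v J ^ 4) ∨ (v τ < 1 ∧ v J = v J' ^ 4) ∨ (v τ = 1 ∧ v J = v J'))) := by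
  have h16 : v (16 : F) = 1 := by
    have : (16 : F) = 2 ^ 4 := by norm_num
    rw [this, map_pow, h2, one_pow]
  have h256 : v (256 : F) = 1 := by
    have : (256 : F) = 2 ^ 8 := by norm_num
    rw [this, map_pow, h2, one_pow]
  have h4096 : v (4096 : F) = 1 := by
    have : (4096 : F) = 2 ^ 12 := by norm_num
    rw [this, map_pow, h2, one_pow]
  have h240 : v (240 : F) ≤ 1 := by
    have := hnat 240
    simpa using this
  have eJ := congrArg v hJ
  have eJ' := congrArg v hJ'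
  rw [map_mul, map_mul, map_pow, map_pow] at eJ
  rw [map_mul, map_mul, map_pow] at eJ'
  rcases lt_trichotomy (v τ) 1 with hτ | hτ | hτ
  · -- `τ = 0`
    right
    have e1 : v (τ + 16) = 1 := by
      rw [Valuation.map_add_eq_of_lt_right v (by rw [h16]; exact hτ), h16]
    have hτ2 : v (τ ^ 2) < 1 := by
      rw [map_pow]; exact pow_lt_one₀ zero_le hτ two_ne_zero
    have e2 : v (τ ^ 2 + 256 * τ + 4096) = 1 := by
      have : τ ^ 2 + 256 * τ + 4096 = 4096 + 256 * τ + τ ^ 2 := by ring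
      rw [this, T4_dom v (by rw [h4096, map_mul, h256, one_mul]; exact hτ)
        (by rw [h4096]; exact hτ2), h4096]
    have e3 : v (τ ^ 2 + 16 * τ + 16) = 1 := by
      have : τ ^ 2 + 16 * τ + 16 = 16 + 16 * τ + τ ^ 2 := by ring
      rw [this, T4_dom v (by rw [h16, map_mul, h16, one_mul]; exact hτ)
        (by rw [h16]; exact hτ2), h16]
    rw [e1, e2, mul_one, one_pow] at eJ
    rw [e1, e3, mul_one, one_pow] at eJ'
    have hx0 : v τ ≠ 0 := by
      intro h0
      rw [h0, mul_zero] at eJ'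
      exact zero_ne_one eJ'
    have f' : v J' = (v τ)⁻¹ := eq_inv_of_mul_eq_one_left eJ'
    have f : v J = (v τ ^ 4)⁻¹ := eq_inv_of_mul_eq_one_left eJ
    have g' : 1 < v J' := by
      rw [f']; exact (one_lt_inv₀ (zero_lt_iff.2 hx0)).2 hτ
    have hJJ : v J = v J' ^ 4 := by rw [f, f', inv_pow]
    refine ⟨?_, g', Or.inr (Or.inl ⟨hτ, hJJ⟩)⟩
    rw [hJJ]
    exact one_lt_pow₀ g' (by norm_num)
  · -- `τ` is a unit
    have hρ : v (τ + 16) ≤ 1 := by
      refine (v.map_add_le (g := 1) ?_ ?_)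
      · exact hτ.le
      · exact h16.le
    rw [hτ, one_pow, one_mul] at eJ
    rw [hτ, one_mul] at eJ'
    rcases lt_or_eq_of_le hρ with hρ1 | hρ1
    · right
      have e2 : v (τ ^ 2 + 256 * τ + 4096) = 1 := by
        have : τ ^ 2 + 256 * τ + 4096 = (τ + 16) * (τ + 240) + 256 := by ring
        rw [this, Valuation.map_add_eq_of_lt_right v ?_, h256]
        rw [h256, map_mul]
        have h3 : v (τ + 240) ≤ 1 := v.map_add_le hτ.le h240
        exact mul_lt_one_of_lt_of_le hρ1 h3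
      have e3 : v (τ ^ 2 + 16 * τ + 16) = 1 := by
        have : τ ^ 2 + 16 * τ + 16 = (τ + 16) * τ + 16 := by ring
        rw [this, Valuation.map_add_eq_of_lt_right v ?_, h16]
        rw [h16, map_mul, hτ, mul_one]
        exact hρ1
      rw [e2, one_pow] at eJ
      rw [e3, one_pow] at eJ'
      have hx0 : v (τ + 16) ≠ 0 := by
        intro h0
        rw [h0, mul_zero] at eJ'
        exact zero_ne_one eJ'
      have f' : v J' = (v (τ + 16))⁻¹ := eq_inv_of_mul_eq_one_left eJ'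
      have f : v J = (v (τ + 16))⁻¹ := eq_inv_of_mul_eq_one_left eJ
      have g' : 1 < v J' := by
        rw [f']; exact (one_lt_inv₀ (zero_lt_iff.2 hx0)).2 hρ1
      refine ⟨by rw [f, ← f']; exact g', g', Or.inr (Or.inr ⟨hτ, by rw [f, f']⟩)⟩
    · left
      refine ⟨?_, hτ⟩
      rw [hρ1, mul_one] at eJ
      rw [eJ]
      apply pow_le_one₀ zero_le
      refine v.map_add_le (v.map_add_le ?_ ?_) h4096.le
      · rw [map_pow, hτ, one_pow]
      · rw [map_mul, h256, hτ, one_mul]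
  · -- `τ = ∞`
    right
    have hx0 : v τ ≠ 0 := (zero_lt_one.trans hτ).ne'
    have hτ2 : v τ < v (τ ^ 2) := by
      rw [map_pow, pow_two]
      exact lt_mul_of_one_lt_left (zero_lt_iff.2 hx0) hτ
    have e1 : v (τ + 16) = v τ :=
      Valuation.map_add_eq_of_lt_left v (by rw [h16]; exact hτ)
    have e2 : v (τ ^ 2 + 256 * τ + 4096) = v τ ^ 2 := by
      rw [T4_dom v (by rw [map_mul, h256, one_mul]; exact hτ2)
        (by rw [h4096]; exact hτ.trans hτ2), map_pow]
    have e3 : v (τ ^ 2 + 16 * τ + 16) = v τ ^ 2 := by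
      rw [T4_dom v (by rw [map_mul, h16, one_mul]; exact hτ2)
        (by rw [h16]; exact hτ.trans hτ2), map_pow]
    rw [e1, e2] at eJ
    rw [e1, e3] at eJ'
    have f : v J = v τ := by
      apply mul_right_cancel₀ (pow_ne_zero 5 hx0)
      rw [show v τ ^ 5 = v τ ^ 4 * v τ from pow_succ _ _, eJ, ← pow_mul, ← pow_succ, ← pow_succ']
    have f' : v J' = v τ ^ 4 := by
      apply mul_right_cancel₀ (pow_ne_zero 2 hx0)
      rw [show v τ ^ 2 = v τ * v τ from pow_two _, eJ', ← pow_mul, ← pow_two, ← pow_add]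
    refine ⟨by rw [f]; exact hτ, by rw [f']; exact one_lt_pow₀ hτ (by norm_num),
      Or.inl ⟨hτ, by rw [f, f']⟩⟩

/-- **MUT-T4**. -/
theorem type4 : Stmt_Type4 := by
  intro F _ O τ J J' h2 hJ hJ'
  have hnat : ∀ n : ℕ, O.valuation (n : F) ≤ 1 :=
    fun n => (O.valuation_le_one_iff _).2 (natCast_mem O n)
  have hnot : ∀ x : F, x ∉ O ↔ 1 < O.valuation x := fun x => by
    rw [← O.valuation_le_one_iff, not_le]
  unfold CuspType
  rw [hnot, hnot, ← O.valuation_le_one_iff]
  exact T4_core O.valuation hnat τ J J' h2 hJ hJ'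

end Fermat.Agent.S36.Loc
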