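import Fermat.Agent.S36.Loc.Interface2

/-!
# S36 / Loc, task MUT-T9 (helper77): position of a valuation ring with respect to the cusps of `X₀(9)`
-/

set_option autoImplicit false

namespace Fermat.Agent.S36.Loc

section

variable {F : Type} [Field F] (O : ValuationSubring F)

/-- unit + (small) * (integral) is a unit. -/
theorem T9_unit {c s w : F} (hc : O.valuation c = 1) (hs : O.valuation s < 1) (hw : w ∈ O) :
    O.valuation (c + s * w) = 1 := by
  have h1 : O.valuation (s * w) < O.valuation c := by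
    rw [hc, map_mul]
    exact mul_lt_one_of_lt_of_le hs ((O.valuation_le_one_iff w).2 hw)
  rw [Valuation.map_add_eq_of_lt_left _ h1, hc]

theorem T9_not_mem {x : F} (h : 1 < O.valuation x) : x ∉ O := fun hx =>
  absurd ((O.valuation_le_one_iff x).2 hx) (not_le.2 h)

/-- `a * b = 1`, `b < 1` gives `1 < a`. -/
theorem T9_one_lt {Γ : Type*} [LinearOrderedCommGroupWithZero Γ] {a b : Γ} (h : a * b = 1)
    (hb : b < 1) : 1 < a := by
  by_contra ha
  have h1 : a * b < 1 := by
    rw [mul_comm]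
    exact mul_lt_one_of_lt_of_le hb (not_lt.1 ha)
  exact absurd h h1.ne

end

theorem type9 : Stmt_Type9 := by
  intro F _ O τ J J' h3 hJ hJ'
  have hp : ∀ k : ℕ, O.valuation ((3 : F) ^ k) = 1 := fun k => by rw [map_pow, h3, one_pow]
  have h9 : O.valuation (9 : F) = 1 := by
    have := hp 2
    norm_num at this
    exact this
  have h27 : O.valuation (27 : F) = 1 := by
    have := hp 3
    norm_num at this
    exact this
  have h243 : O.valuation (243 : F) = 1 := by
    have := hp 5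
    norm_num at this
    exact this
  have h6561 : O.valuation (6561 : F) = 1 := by
    have := hp 8
    norm_num at this
    exact this
  have vJ := congrArg O.valuation hJ
  have vJ' := congrArg O.valuation hJ'
  simp only [map_mul, map_pow] at vJ vJ'
  rcases lt_trichotomy (O.valuation τ) 1 with hτ | hτ | hτ
  · -- `τ = 0`
    have hτO : τ ∈ O := (O.valuation_le_one_iff τ).1 hτ.le
    have e1 : O.valuation (τ ^ 2 + 9 * τ + 27) = 1 := by
      have : τ ^ 2 + 9 * τ + 27 = 27 + τ * (τ + 9) := by ring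
      rw [this]
      exact T9_unit O h27 hτ (add_mem hτO (ofNat_mem O 9))
    have e2 : O.valuation (τ + 9) = 1 := by
      have : τ + 9 = 9 + τ * 1 := by ring
      rw [this]
      exact T9_unit O h9 hτ (one_mem O)
    have e3 : O.valuation (τ ^ 3 + 243 * τ ^ 2 + 2187 * τ + 6561) = 1 := by
      have : τ ^ 3 + 243 * τ ^ 2 + 2187 * τ + 6561 = 6561 + τ * (τ ^ 2 + 243 * τ + 2187) := by ring
      rw [this]
      exact T9_unit O h6561 hτ (add_mem (add_mem (pow_mem hτO 2) (mul_mem (ofNat_mem O 243) hτO))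
        (ofNat_mem O 2187))
    have e4 : O.valuation (τ + 3) = 1 := by
      have : τ + 3 = 3 + τ * 1 := by ring
      rw [this]
      exact T9_unit O h3 hτ (one_mem O)
    have e5 : O.valuation (τ ^ 3 + 9 * τ ^ 2 + 27 * τ + 3) = 1 := by
      have : τ ^ 3 + 9 * τ ^ 2 + 27 * τ + 3 = 3 + τ * (τ ^ 2 + 9 * τ + 27) := by ring
      rw [this]
      exact T9_unit O h3 hτ (add_mem (add_mem (pow_mem hτO 2) (mul_mem (ofNat_mem O 9) hτO))
        (ofNat_mem O 27))
    rw [e1, e2, e3, mul_one, mul_one, one_pow] at vJ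
    rw [e1, e4, e5, mul_one, mul_one, one_pow] at vJ'
    have hT9 : O.valuation τ ^ 9 < 1 := pow_lt_one₀ zero_le hτ (by norm_num)
    refine Or.inr ⟨T9_not_mem O (T9_one_lt vJ hT9), T9_not_mem O (T9_one_lt vJ' hτ),
      Or.inr (Or.inl ⟨hτ, ?_⟩)⟩
    have hT0 : O.valuation τ ^ 9 ≠ 0 := by
      intro h
      rw [h, mul_zero] at vJ
      exact zero_ne_one vJ
    apply mul_right_cancel₀ hT0
    rw [vJ, ← mul_pow, vJ', one_pow]
  · -- `τ` a unit
    have hτO : τ ∈ O := (O.valuation_le_one_iff τ).1 hτ.le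
    have hκO : τ ^ 2 + 9 * τ + 27 ∈ O :=
      add_mem (add_mem (pow_mem hτO 2) (mul_mem (ofNat_mem O 9) hτO)) (ofNat_mem O 27)
    rw [hτ, one_pow, one_mul] at vJ
    rw [hτ, one_mul] at vJ'
    rcases lt_or_eq_of_le ((O.valuation_le_one_iff _).2 hκO) with hκ | hκ
    · have f1 : O.valuation (τ + 3) = 1 := by
        have g1 : O.valuation ((τ + 3) * (τ + 6)) = 1 := by
          have : (τ + 3) * (τ + 6) = -9 + (τ ^ 2 + 9 * τ + 27) * 1 := by ring
          rw [this]
          exact T9_unit O (by rw [Valuation.map_neg, h9]) hκ (one_mem O)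
        rw [map_mul] at g1
        have g2 : O.valuation (τ + 3) ≤ 1 :=
          (O.valuation_le_one_iff _).2 (add_mem hτO (ofNat_mem O 3))
        have g3 : O.valuation (τ + 6) ≤ 1 :=
          (O.valuation_le_one_iff _).2 (add_mem hτO (ofNat_mem O 6))
        rcases lt_or_eq_of_le g2 with g4 | g4
        · exact absurd g1 (mul_lt_one_of_lt_of_le g4 g3).ne
        · exact g4
      have f2 : O.valuation (τ + 9) * O.valuation (τ ^ 3 + 243 * τ ^ 2 + 2187 * τ + 6561) = 1 := by
        rw [← map_mul]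
        have : (τ + 9) * (τ ^ 3 + 243 * τ ^ 2 + 2187 * τ + 6561) =
            243 * (τ + 3) + (τ ^ 2 + 9 * τ + 27) * (τ ^ 2 + 243 * τ + 2160) := by ring
        rw [this]
        exact T9_unit O (by rw [map_mul, h243, f1, one_mul]) hκ
          (add_mem (add_mem (pow_mem hτO 2) (mul_mem (ofNat_mem O 243) hτO)) (ofNat_mem O 2160))
      have f3 : O.valuation (τ + 3) * O.valuation (τ ^ 3 + 9 * τ ^ 2 + 27 * τ + 3) = 1 := by
        rw [← map_mul]
        have : (τ + 3) * (τ ^ 3 + 9 * τ ^ 2 + 27 * τ + 3) =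
            3 * (τ + 3) + (τ ^ 2 + 9 * τ + 27) * (τ ^ 2 + 3 * τ) := by ring
        rw [this]
        exact T9_unit O (by rw [map_mul, h3, f1, one_mul]) hκ
          (add_mem (pow_mem hτO 2) (mul_mem (ofNat_mem O 3) hτO))
      rw [f2, one_pow] at vJ
      rw [f3, one_pow] at vJ'
      refine Or.inr ⟨T9_not_mem O (T9_one_lt vJ hκ), T9_not_mem O (T9_one_lt vJ' hκ),
        Or.inr (Or.inr ⟨hτ, ?_⟩)⟩
      have hκ0 : O.valuation (τ ^ 2 + 9 * τ + 27) ≠ 0 := by
        intro h
        rw [h, mul_zero] at vJ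
        exact zero_ne_one vJ
      apply mul_right_cancel₀ hκ0
      rw [vJ, vJ']
    · refine Or.inl ⟨?_, hτ⟩
      rw [hκ, mul_one] at vJ
      rw [← O.valuation_le_one_iff, vJ, ← map_mul, ← map_pow, O.valuation_le_one_iff]
      exact pow_mem (mul_mem (add_mem hτO (ofNat_mem O 9))
        (add_mem (add_mem (add_mem (pow_mem hτO 3) (mul_mem (ofNat_mem O 243) (pow_mem hτO 2)))
          (mul_mem (ofNat_mem O 2187) hτO)) (ofNat_mem O 6561))) 3
  · -- `τ = ∞`
    have hτ0 : τ ≠ 0 := by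
      rintro rfl
      rw [map_zero] at hτ
      exact absurd hτ (not_lt.2 zero_le)
    have hT0 : O.valuation τ ≠ 0 := (Valuation.ne_zero_iff _).2 hτ0
    have hσ : O.valuation τ⁻¹ < 1 := by
      rw [map_inv₀]
      exact (inv_lt_one₀ (zero_lt_iff.2 hT0)).2 hτ
    have hσO : τ⁻¹ ∈ O := (O.valuation_le_one_iff _).1 hσ.le
    have h1 : O.valuation (1 : F) = 1 := map_one _
    have e1 : O.valuation (τ ^ 2 + 9 * τ + 27) = O.valuation τ ^ 2 := by
      have : τ ^ 2 + 9 * τ + 27 = τ ^ 2 * (1 + τ⁻¹ * (9 + 27 * τ⁻¹)) := by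
        field_simp
        ring
      rw [this, map_mul, map_pow, T9_unit O h1 hσ
        (add_mem (ofNat_mem O 9) (mul_mem (ofNat_mem O 27) hσO)), mul_one]
    have e2 : O.valuation (τ + 9) = O.valuation τ := by
      have : τ + 9 = τ * (1 + τ⁻¹ * 9) := by
        field_simp
      rw [this, map_mul, T9_unit O h1 hσ (ofNat_mem O 9), mul_one]
    have e3 : O.valuation (τ ^ 3 + 243 * τ ^ 2 + 2187 * τ + 6561) = O.valuation τ ^ 3 := by
      have : τ ^ 3 + 243 * τ ^ 2 + 2187 * τ + 6561 =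
          τ ^ 3 * (1 + τ⁻¹ * (243 + 2187 * τ⁻¹ + 6561 * τ⁻¹ ^ 2)) := by
        field_simp
        ring
      rw [this, map_mul, map_pow, T9_unit O h1 hσ
        (add_mem (add_mem (ofNat_mem O 243) (mul_mem (ofNat_mem O 2187) hσO))
          (mul_mem (ofNat_mem O 6561) (pow_mem hσO 2))), mul_one]
    have e4 : O.valuation (τ + 3) = O.valuation τ := by
      have : τ + 3 = τ * (1 + τ⁻¹ * 3) := by
        field_simp
      rw [this, map_mul, T9_unit O h1 hσ (ofNat_mem O 3), mul_one]
    have e5 : O.valuation (τ ^ 3 + 9 * τ ^ 2 + 27 * τ + 3) = O.valuation τ ^ 3 := by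
      have : τ ^ 3 + 9 * τ ^ 2 + 27 * τ + 3 =
          τ ^ 3 * (1 + τ⁻¹ * (9 + 27 * τ⁻¹ + 3 * τ⁻¹ ^ 2)) := by
        field_simp
        ring
      rw [this, map_mul, map_pow, T9_unit O h1 hσ
        (add_mem (add_mem (ofNat_mem O 9) (mul_mem (ofNat_mem O 27) hσO))
          (mul_mem (ofNat_mem O 3) (pow_mem hσO 2))), mul_one]
    rw [e1, e2, e3] at vJ
    rw [e1, e4, e5] at vJ'
    have gJ : O.valuation J = O.valuation τ := by
      apply mul_right_cancel₀ (pow_ne_zero 11 hT0)
      calc O.valuation J * O.valuation τ ^ 11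
          = O.valuation J * (O.valuation τ ^ 9 * O.valuation τ ^ 2) := by rw [← pow_add]
        _ = (O.valuation τ * O.valuation τ ^ 3) ^ 3 := vJ
        _ = O.valuation τ * O.valuation τ ^ 11 := by rw [← pow_succ', ← pow_mul, ← pow_succ']
    have gJ' : O.valuation J' = O.valuation τ ^ 9 := by
      apply mul_right_cancel₀ (pow_ne_zero 3 hT0)
      calc O.valuation J' * O.valuation τ ^ 3
          = O.valuation J' * (O.valuation τ * O.valuation τ ^ 2) := by rw [← pow_succ']
        _ = (O.valuation τ * O.valuation τ ^ 3) ^ 3 := vJ'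
        _ = O.valuation τ ^ 9 * O.valuation τ ^ 3 := by rw [← pow_succ', ← pow_mul, ← pow_add]
    refine Or.inr ⟨T9_not_mem O (gJ ▸ hτ), T9_not_mem O ?_, Or.inl ⟨hτ, by rw [gJ, gJ']⟩⟩
    rw [gJ']
    exact one_lt_pow₀ hτ (by norm_num)

end Fermat.Agent.S36.Loc
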