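import Fermat.Agent.S36.Loc.Interface2
import Fermat.Agent.S36.Gre.NorAbs

/-!
# S36 / Loc, LOC-NORV : normality in valuation form gives `NorInt` (`Stmt_NorV`)
-/

set_option autoImplicit false

namespace Fermat.Agent.S36.Loc

open Fermat.Agent
open Fermat.Agent.KL (Chart PolyR cst)
open Fermat.Agent.S36.Val
open Polynomial

theorem norV : Stmt_NorV := by
  intro A₀ F _ _ _ t V P hPp hcen hlift z hz ⟨p, hp, hpz⟩
  have h1P : (1 : Chart A₀ t) ∉ P := (Ideal.ne_top_iff_one P).1 hPp.ne_top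
  have hzO : z ∈ V := ((hcen z).2.2).1 hz
  have hpz' : V.valuation (aeval z p) < 1 := ((hcen _).1).1 hpz
  have hBO : ∀ b : Chart A₀ t, algebraMap (Chart A₀ t) F b ∈ V := fun b =>
    ((hcen _).2.2).1 ⟨1, h1P, b, by rw [map_one, one_mul]⟩
  obtain ⟨p0, hp0, hp0z⟩ := Gre.NorAbs_core (R := PolyR A₀ t) V hBO z hzO p hp hpz'
  obtain ⟨y, hy, hzy⟩ := hlift z hzO ⟨p0, hp0, hp0z⟩
  exact ⟨⟨y, hy⟩, ((hcen _).1).2 hzy⟩

end Fermat.Agent.S36.Loc
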