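import Fermat.Agent.S36.Loc.Final
import Fermat.Agent.S36.Loc.Abs
import Fermat.Agent.S36.Loc.Side
import Fermat.Agent.S36.Loc.IsoV
import Fermat.Agent.S36.Loc.NorV
import Fermat.Agent.S36.Loc.AtV
import Fermat.Agent.S36.Loc.Cong
import Fermat.Agent.S36.Loc.MutC
import Fermat.Agent.S36.Loc.MutAbs
import Fermat.Agent.S36.Loc.ValCrit
import Fermat.Agent.S36.Loc.DichV
import Fermat.Agent.S36.Loc.CuspStep
import Fermat.Agent.S36.Loc.Type4
import Fermat.Agent.S36.Loc.Type9
import Fermat.Agent.S36.Phi.Out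
import Fermat.Agent.S36.Phi.Deg
import Fermat.Agent.S36.Phi.Ord
import Fermat.Agent.S36.Phi.Sym
import Fermat.Agent.S36.GRE.All
import Fermat.Agent.S36.Base.All

/-!
# S36 / Loc : everything unconditional (helper78)
-/

set_option autoImplicit false

namespace Fermat.Agent.S36.Loc

theorem all_Phi : Phi.Stmt_Phi := Phi.phi (Phi.phiDeg Phi.phiOrd Phi.phiSym)

theorem all_MutAbs : Stmt_MutAbs := mutAbs valCrit dichV cuspStep

theorem all_Mut : Stmt_Mut := mutC all_MutAbs mutTrans type4 type9 all_Phi Base.all_Mu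

theorem all_Side : Stmt_Side := side isoV norV Val.stmt_CenAbs

theorem all_LocAbs : Stmt_LocAbs := locAbs all_Side locAtV Val.stmt_VertInv

/-- **the output of [LOC]**, unconditional. -/
theorem all_LocInst : Inst.Stmt_LocInst :=
  locInst all_LocAbs all_Mut cong' GRE.all_LiftGre GRE.all_GoodCoord

end Fermat.Agent.S36.Loc
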